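import Fermat.Agent.MUL.Orig.S48.G1.Defs
import Fermat.Agent.MUL.S48.G1.Main
import Fermat.Agent.MUL.S48.W.G.Red.Res

section MergeWrap_S48_G1_ThetaDefs -- from S48/G1/ThetaDefs.lean

/-!
# S48 THETA1 (helper92): definitions

A primitive element for `Γ₁(N)`, `N ≥ 3`, of weight `3`:

* `Sr N a = ∑_{n ≡ a mod N, n ≠ 0} n⁻³` (real; odd in `a`),
* `wlat N w τ = ∑_{v ∈ ℤ²} w (v mod N) (v₀ τ + v₁)⁻³` (weighted lattice sum, any weight function),
* `wTheta N a = [a₀ = 0] · Sr N a₁`, `bigTheta N = wlat N (wTheta N)`, `c0 N = ∑_a Sr N a ^ 2`.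

`θ = bigTheta / c0`.  The limits of the translates of `bigTheta` are `∑_{a c = 0} Sr (a a_γ) Sr a ≤ c0`
(Cauchy–Schwarz), with equality iff `γ ∈ Γ₁(N)` (`Sr 1` is the strict maximum of `Sr`).
-/

set_option autoImplicit false

noncomputable section

namespace Fermat.Agent.S48G1.Theta

open UpperHalfPlane EisensteinSeries

/-- `∑_{n ≡ a mod N, n ≠ 0} n⁻³`. -/
def Sr (N : ℕ) (a : ZMod N) : ℝ :=
  ∑' n : ℤ, if (n : ZMod N) = a then ((n : ℝ) ^ 3)⁻¹ else 0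

/-- the weighted lattice sum of weight `3` with weight function `w` on `(ℤ/N)²`. -/
def wlat (N : ℕ) (w : (Fin 2 → ZMod N) → ℂ) (τ : ℍ) : ℂ :=
  ∑' v : Fin 2 → ℤ, w ((↑) ∘ v) * eisSummand 3 v τ

/-- the weight function of `Θ`: supported on `a₀ = 0`, with value the constant term `Sr a₁`. -/
def wTheta (N : ℕ) (a : Fin 2 → ZMod N) : ℂ :=
  if a 0 = 0 then ((Sr N (a 1) : ℝ) : ℂ) else 0

/-- `Θ = ∑_{N ∣ m} Sr(n) (m τ + n)⁻³`. -/
def bigTheta (N : ℕ) (τ : ℍ) : ℂ := wlat N (wTheta N) τ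

/-- the constant term of `Θ`. -/
def c0 (N : ℕ) [NeZero N] : ℝ := ∑ a : ZMod N, Sr N a ^ 2

end Fermat.Agent.S48G1.Theta
end
end MergeWrap_S48_G1_ThetaDefs

section MergeWrap_S48_G1_ThetaSr -- from S48/G1/ThetaSr.lean

/-!
# S48 THETA1 (helper92): the residue sums `Sr N a = ∑_{n ≡ a mod N} n⁻³`

* `summable_SrTerm`, `Sr_neg` (oddness), `Sr_zero`,
* `Sr_eq_tsum_shift : Sr N a = ∑' j : ℤ, ((a.val + N j) ^ 3)⁻¹`,
* `Sr_lt_Sr_one : 3 ≤ N → b ≠ 1 → Sr N b < Sr N 1`, `Sr_one_pos`.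
-/

set_option autoImplicit false

noncomputable section

namespace Fermat.Agent.S48G1.Theta

variable {N : ℕ}

theorem summable_inv_int_cube : Summable fun n : ℤ => ((n : ℝ) ^ 3)⁻¹ := by
  have h := (Real.summable_one_div_int_pow (p := 3)).mpr (by norm_num)
  simpa [one_div] using h

theorem summable_abs_inv_int_cube : Summable fun n : ℤ => |((n : ℝ) ^ 3)⁻¹| :=
  summable_inv_int_cube.abs

theorem summable_SrTerm (a : ZMod N) :
    Summable fun n : ℤ => if (n : ZMod N) = a then ((n : ℝ) ^ 3)⁻¹ else 0 := by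
  refine Summable.of_norm_bounded summable_abs_inv_int_cube (fun n => ?_)
  split_ifs
  · rw [Real.norm_eq_abs]
  · simp

/-- `Sr` is odd. -/
theorem Sr_neg (a : ZMod N) : Sr N (-a) = -Sr N a := by
  unfold Sr
  rw [← (Equiv.neg ℤ).tsum_eq, ← tsum_neg]
  refine tsum_congr fun n => ?_
  simp only [Equiv.neg_apply, Int.cast_neg, neg_inj]
  split_ifs
  · rw [Odd.neg_pow (by decide), inv_neg]
  · simp

theorem Sr_zero : Sr N 0 = 0 := by
  have h := Sr_neg (N := N) 0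
  rw [neg_zero] at h
  linarith

/-- reindexing: `Sr N a = ∑_j (a.val + N j)⁻³`. -/
theorem Sr_eq_tsum_shift [NeZero N] (a : ZMod N) :
    Sr N a = ∑' j : ℤ, ((((a.val : ℤ) + N * j : ℤ) : ℝ) ^ 3)⁻¹ := by
  unfold Sr
  have hinj : Function.Injective fun j : ℤ => ((a.val : ℤ) + N * j) := by
    intro j j' h
    have hN : (N : ℤ) ≠ 0 := by exact_mod_cast NeZero.ne N
    have : (N : ℤ) * j = N * j' := by simpa using h
    exact mul_left_cancel₀ hN this
  have hsupp : Function.support (fun n : ℤ => if (n : ZMod N) = a then ((n : ℝ) ^ 3)⁻¹ else 0) ⊆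
      Set.range fun j : ℤ => ((a.val : ℤ) + N * j) := by
    intro n hn
    rw [Function.mem_support] at hn
    have hna : (n : ZMod N) = a := by
      by_contra h
      exact hn (if_neg h)
    have h1 : ((n - (a.val : ℤ) : ℤ) : ZMod N) = 0 := by
      rw [Int.cast_sub, hna]
      simp
    obtain ⟨j, hj⟩ := (ZMod.intCast_zmod_eq_zero_iff_dvd _ N).mp h1
    exact ⟨j, by simp only; rw [← hj]; ring⟩
  rw [← hinj.tsum_eq hsupp]
  refine tsum_congr fun j => ?_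
  have : ((((a.val : ℤ) + N * j : ℤ)) : ZMod N) = a := by
    simp
  rw [if_pos this]

theorem summable_shift [NeZero N] (a : ZMod N) :
    Summable fun j : ℤ => ((((a.val : ℤ) + N * j : ℤ) : ℝ) ^ 3)⁻¹ := by
  have hinj : Function.Injective fun j : ℤ => ((a.val : ℤ) + N * j) := by
    intro j j' h
    have hN : (N : ℤ) ≠ 0 := by exact_mod_cast NeZero.ne N
    have : (N : ℤ) * j = N * j' := by simpa using h
    exact mul_left_cancel₀ hN this
  exact summable_inv_int_cube.comp_injective hinj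

/-- termwise comparison. -/
theorem inv_cube_lt_inv_cube {x y : ℝ} (hxy : x < y) (h : 0 < x ∨ y < 0) :
    (y ^ 3)⁻¹ < (x ^ 3)⁻¹ := by
  have h3 : x ^ 3 < y ^ 3 := by
    have : StrictMono fun t : ℝ => t ^ 3 := Odd.strictMono_pow (by decide)
    exact this hxy
  rcases h with h | h
  · have hx3 : 0 < x ^ 3 := by positivity
    exact (inv_lt_inv₀ (hx3.trans h3) hx3).mpr h3
  · have hy3 : y ^ 3 < 0 := by
      have : Odd 3 := by decide
      exact this.pow_neg h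
    exact (inv_lt_inv_of_neg hy3 (h3.trans hy3)).mpr h3

theorem Sr_eq_tsum_shift' [NeZero N] (a : ZMod N) :
    Sr N a = ∑' j : ℤ, (((a.val : ℝ) + N * j) ^ 3)⁻¹ := by
  rw [Sr_eq_tsum_shift]
  refine tsum_congr fun j => ?_
  push_cast
  rfl

theorem summable_shift' [NeZero N] (a : ZMod N) :
    Summable fun j : ℤ => (((a.val : ℝ) + N * j) ^ 3)⁻¹ := by
  refine (summable_shift a).congr fun j => ?_
  push_cast
  rfl

theorem shift_term_lt (hN : 3 ≤ N) {r : ℕ} (hr : 2 ≤ r) (hrN : r < N) (j : ℤ) :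
    (((r : ℝ) + N * j) ^ 3)⁻¹ < (((1 : ℝ) + N * j) ^ 3)⁻¹ := by
  have hNpos : (0 : ℝ) < N := by positivity
  have hr' : (2 : ℝ) ≤ r := by exact_mod_cast hr
  have hrN' : (r : ℝ) + 1 ≤ N := by exact_mod_cast hrN
  apply inv_cube_lt_inv_cube
  · linarith
  · rcases le_or_gt 0 j with hj | hj
    · left
      have : (0 : ℝ) ≤ j := by exact_mod_cast hj
      have := mul_nonneg hNpos.le this
      linarith
    · right
      have h1 : (j : ℝ) ≤ -1 := by
        have : j ≤ -1 := by omega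
        exact_mod_cast this
      have h2 : (N : ℝ) * j ≤ N * (-1) := mul_le_mul_of_nonneg_left h1 hNpos.le
      linarith

/-- `Sr N 1` is the strict maximum of `Sr N` (`N ≥ 3`), part 1: residues `2 ≤ r < N`. -/
theorem Sr_lt_Sr_one_of_val (hN : 3 ≤ N) [NeZero N] (b : ZMod N) (hb : 2 ≤ b.val) :
    Sr N b < Sr N 1 := by
  have hN1 : Fact (1 < N) := ⟨by omega⟩
  have hbN : b.val < N := ZMod.val_lt b
  have h1 : ((1 : ZMod N).val : ℝ) = 1 := by
    rw [ZMod.val_one]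
    simp
  rw [Sr_eq_tsum_shift' b, Sr_eq_tsum_shift' (1 : ZMod N)]
  have hs1 := summable_shift' (1 : ZMod N)
  simp only [h1] at hs1 ⊢
  exact Summable.tsum_lt_tsum (i := 0) (fun j => (shift_term_lt hN hb hbN j).le)
    (shift_term_lt hN hb hbN 0) (summable_shift' b) hs1

theorem Sr_one_pos (hN : 3 ≤ N) [NeZero N] : 0 < Sr N 1 := by
  have hN1 : Fact (1 < N) := ⟨by omega⟩
  have hval : (-1 : ZMod N).val = N - 1 := by
    rw [ZMod.neg_val, if_neg (one_ne_zero), ZMod.val_one]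
  have h := Sr_lt_Sr_one_of_val hN (-1 : ZMod N) (by rw [hval]; omega)
  rw [Sr_neg] at h
  linarith

/-- `Sr N 1` is the strict maximum of `Sr N` (`N ≥ 3`). -/
theorem Sr_lt_Sr_one (hN : 3 ≤ N) [NeZero N] {b : ZMod N} (hb : b ≠ 1) : Sr N b < Sr N 1 := by
  have hN1 : Fact (1 < N) := ⟨by omega⟩
  by_cases h0 : b = 0
  · rw [h0, Sr_zero]
    exact Sr_one_pos hN
  · refine Sr_lt_Sr_one_of_val hN b ?_
    have h1 : b.val ≠ 0 := fun h => h0 ((ZMod.val_eq_zero b).mp h)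
    have h2 : b.val ≠ 1 := by
      intro h
      apply hb
      have := ZMod.natCast_zmod_val b
      rw [h] at this
      simpa using this.symm
    omega

end Fermat.Agent.S48G1.Theta
end
end MergeWrap_S48_G1_ThetaSr

section MergeWrap_S48_G1_ThetaParseval -- from S48/G1/ThetaParseval.lean

/-!
# S48 THETA1 (helper92, for helper1's half (B)): Parseval for the residue sums

`Dk N k = ∑_j e(-jk/N) Sr N j` (the discrete Fourier transform of `Sr N`) and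
`N · c0 N = - ∑_k (Dk N k)²`  (`Sr` is odd, so `Dk (-k) = - Dk k`).
-/

set_option autoImplicit false

noncomputable section

namespace Fermat.Agent.S48G1.Theta

open ZMod

variable {N : ℕ}

/-- the discrete Fourier transform of `Sr N`. -/
def Dk (N : ℕ) [NeZero N] (k : ZMod N) : ℂ :=
  ∑ j : ZMod N, ZMod.stdAddChar (N := N) (-(j * k)) * ((Sr N j : ℝ) : ℂ)

theorem Dk_eq_dft [NeZero N] (k : ZMod N) :
    Dk N k = ZMod.dft (fun j : ZMod N => ((Sr N j : ℝ) : ℂ)) k := by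
  rw [ZMod.dft_apply]
  rfl

theorem Dk_neg [NeZero N] (k : ZMod N) : Dk N (-k) = -Dk N k := by
  unfold Dk
  rw [← Finset.sum_neg_distrib]
  refine Fintype.sum_equiv (Equiv.neg _) _ _ fun j => ?_
  rw [Equiv.neg_apply, Sr_neg]
  push_cast
  rw [mul_neg j k, neg_mul j k, mul_neg, neg_neg, neg_neg]

/-- Fourier inversion for `Sr`. -/
theorem sum_stdAddChar_mul_Dk [NeZero N] (j : ZMod N) :
    ∑ k : ZMod N, ZMod.stdAddChar (N := N) (-(k * j)) * Dk N k =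
      (N : ℂ) * ((Sr N (-j) : ℝ) : ℂ) := by
  have h := congrFun (ZMod.dft_dft (fun j : ZMod N => ((Sr N j : ℝ) : ℂ))) j
  rw [ZMod.dft_apply] at h
  simp only [smul_eq_mul] at h
  rw [← h]
  refine Finset.sum_congr rfl fun k _ => ?_
  rw [Dk_eq_dft]

/-- **Parseval**: `N c0 = - ∑_k Dk(k)²`. -/
theorem parseval_c0 (N : ℕ) [NeZero N] :
    (N : ℂ) * ((c0 N : ℝ) : ℂ) = - ∑ k : ZMod N, Dk N k ^ 2 := by
  have h1 : ∑ k : ZMod N, Dk N k ^ 2 =
      ∑ j : ZMod N, ((Sr N j : ℝ) : ℂ) *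
        ∑ k : ZMod N, ZMod.stdAddChar (N := N) (-(k * j)) * Dk N k := by
    have : ∀ k : ZMod N, Dk N k ^ 2 =
        ∑ j : ZMod N, ((Sr N j : ℝ) : ℂ) * (ZMod.stdAddChar (N := N) (-(k * j)) * Dk N k) := by
      intro k
      rw [sq]
      nth_rewrite 1 [Dk]
      rw [Finset.sum_mul]
      refine Finset.sum_congr rfl fun j _ => ?_
      rw [mul_comm j k]
      ring
    simp_rw [this]
    rw [Finset.sum_comm]
    refine Finset.sum_congr rfl fun j _ => ?_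
    rw [Finset.mul_sum]
  rw [h1]
  simp_rw [sum_stdAddChar_mul_Dk, Sr_neg]
  unfold c0
  push_cast
  rw [Finset.mul_sum, ← Finset.sum_neg_distrib]
  refine Finset.sum_congr rfl fun j _ => ?_
  ring

end Fermat.Agent.S48G1.Theta
end
end MergeWrap_S48_G1_ThetaParseval

section MergeWrap_S48_G1_ThetaQExpFourier -- from S48/G1/ThetaQExpFourier.lean

/-!
# S48 THETA1 (B), helper1: the finite Fourier transform of `Sr`

`∑_j e(-j k / N) Sr(j) = ∑_{n ∈ ℤ} e(-n k / N) n⁻³ = -2 i ∑_{n ≥ 1} sin(2 π n x) / n³`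
`= -(4 π³ i / 3) B₃(x)`, `x = k / N`, `B₃(x) = x³ - (3/2) x² + x / 2`.
-/

set_option autoImplicit false
set_option linter.unusedSectionVars false

noncomputable section

namespace Fermat.Agent.S48G1.ThetaQ

open Fermat.Agent.S48G1.Theta

open Complex

variable (N : ℕ) [NeZero N]

/-- the third Bernoulli polynomial. -/
def bern3 (x : ℝ) : ℝ := x ^ 3 - 3 / 2 * x ^ 2 + 1 / 2 * x

theorem summable_inv_cube_int : Summable fun n : ℤ => ((n : ℝ) ^ 3)⁻¹ := by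
  have h := (Real.summable_one_div_int_pow (p := 3)).mpr (by norm_num)
  simpa [one_div] using h

theorem summable_Sr_term (a : ZMod N) :
    Summable fun n : ℤ => if ((n : ℤ) : ZMod N) = a then ((n : ℝ) ^ 3)⁻¹ else 0 := by
  have h := summable_inv_cube_int.indicator {n : ℤ | ((n : ℤ) : ZMod N) = a}
  refine h.congr fun n => ?_
  by_cases hn : ((n : ℤ) : ZMod N) = a
  · rw [if_pos hn, Set.indicator_of_mem (by exact hn)]
  · rw [if_neg hn, Set.indicator_of_notMem (by exact hn)]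

theorem Sr_coe (a : ZMod N) :
    ((Sr N a : ℝ) : ℂ) = ∑' n : ℤ, if ((n : ℤ) : ZMod N) = a then ((n : ℂ) ^ 3)⁻¹ else 0 := by
  unfold Sr
  rw [Complex.ofReal_tsum]
  refine tsum_congr fun n => ?_
  split_ifs <;> push_cast <;> rfl

theorem summable_Sr_term_coe (a : ZMod N) :
    Summable fun n : ℤ => if ((n : ℤ) : ZMod N) = a then ((n : ℂ) ^ 3)⁻¹ else 0 := by
  have h := (Complex.ofRealCLM.summable (summable_Sr_term N a))
  refine h.congr fun n => ?_
  rw [Complex.ofRealCLM_apply]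
  split_ifs <;> push_cast <;> rfl

/-- the additive character `n ↦ e(-n k / N)` on `ℤ`. -/
def chr (k : ZMod N) (n : ℤ) : ℂ := ZMod.stdAddChar (N := N) (-(((n : ℤ) : ZMod N) * k))

theorem chr_eq (k : ZMod N) (n : ℤ) :
    chr N k n = cexp (2 * (Real.pi : ℂ) * I * ((-(n * (k.val : ℤ)) : ℤ) : ℂ) / (N : ℂ)) := by
  unfold chr
  rw [← ZMod.stdAddChar_coe]
  congr 1
  push_cast
  rw [ZMod.natCast_zmod_val]

/-- the Fourier transform of `Sr` as a sum over `ℤ`. -/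
theorem dft_Sr_eq_tsum (k : ZMod N) :
    ∑ j : ZMod N, ZMod.stdAddChar (N := N) (-(j * k)) * ((Sr N j : ℝ) : ℂ) =
      ∑' n : ℤ, chr N k n * ((n : ℂ) ^ 3)⁻¹ := by
  classical
  have h1 : ∀ j : ZMod N, ZMod.stdAddChar (N := N) (-(j * k)) * ((Sr N j : ℝ) : ℂ) =
      ∑' n : ℤ, ZMod.stdAddChar (N := N) (-(j * k)) *
        (if ((n : ℤ) : ZMod N) = j then ((n : ℂ) ^ 3)⁻¹ else 0) := by
    intro j
    rw [Sr_coe, tsum_mul_left]
  rw [Finset.sum_congr rfl fun j _ => h1 j,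
    ← Summable.tsum_finsetSum fun j _ => (summable_Sr_term_coe N j).mul_left _]
  refine tsum_congr fun n => ?_
  rw [Finset.sum_eq_single ((n : ℤ) : ZMod N)]
  · rw [if_pos rfl]; rfl
  · intro b _ hb
    rw [if_neg (Ne.symm hb), mul_zero]
  · intro h
    exact absurd (Finset.mem_univ _) h

end Fermat.Agent.S48G1.ThetaQ
end
end MergeWrap_S48_G1_ThetaQExpFourier

section MergeWrap_S48_G1_ThetaQExpLip -- from S48/G1/ThetaQExpLip.lean

/-!
# S48 THETA1 (B), helper1: the Lipschitz formula on a residue class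

For `τ ∈ ℍ`, `x ∈ ℝ` and `m ≥ 1`:
* `qx_lip_pos` : `∑_j (m τ + x + j)⁻³ = C ∑_{d ≥ 1} d² e(x)^d q^(m d)`,
* `qx_lip_neg` : `∑_j (-m τ + x + j)⁻³ = - C ∑_{d ≥ 1} d² e(-x)^d q^(m d)`,
with `C = (-2 π i)³ / 2!`, `e(x) = exp(2 π i x)`, `q = exp(2 π i τ)`.
-/

set_option autoImplicit false

noncomputable section

namespace Fermat.Agent.S48G1.ThetaQ

open Fermat.Agent.S48G1.Theta

open EisensteinSeries Complex

open UpperHalfPlane hiding I

/-- the constant of the Lipschitz formula in weight `3`. -/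
def lipC : ℂ := (-2 * (Real.pi : ℂ) * I) ^ 3 / 2

/-- `e(x) = exp(2 π i x)`. -/
def eR (x : ℝ) : ℂ := cexp (2 * (Real.pi : ℂ) * I * (x : ℂ))

/-- `q = exp(2 π i τ)`. -/
def qT (τ : ℍ) : ℂ := cexp (2 * (Real.pi : ℂ) * I * (τ : ℂ))

theorem qx_im_pos (τ : ℍ) (x : ℝ) (m : ℕ+) : 0 < ((m : ℂ) * (τ : ℂ) + (x : ℂ)).im := by
  have hm : (0 : ℝ) < (m : ℕ) := by exact_mod_cast m.pos
  simpa using mul_pos hm τ.im_pos

theorem qx_lip_pos (τ : ℍ) (x : ℝ) (m : ℕ+) :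
    ∑' j : ℤ, ((m : ℂ) * (τ : ℂ) + (x : ℂ) + (j : ℂ)) ^ (-3 : ℤ) =
      lipC * ∑' d : ℕ+, ((d : ℕ) : ℂ) ^ 2 * (eR x ^ (d : ℕ) * qT τ ^ ((m : ℕ) * (d : ℕ))) := by
  have h := qExpansion_identity_pnat (k := 2) (by norm_num)
    (⟨(m : ℂ) * (τ : ℂ) + (x : ℂ), qx_im_pos τ x m⟩ : ℍ)
  have hL : ∑' j : ℤ, ((m : ℂ) * (τ : ℂ) + (x : ℂ) + (j : ℂ)) ^ (-3 : ℤ) =
      ∑' n : ℤ, 1 / ((((⟨(m : ℂ) * (τ : ℂ) + (x : ℂ), qx_im_pos τ x m⟩ : ℍ) : ℂ)) + (n : ℂ)) ^
        (2 + 1) := by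
    refine tsum_congr fun j => ?_
    rw [one_div, show (-3 : ℤ) = -((2 + 1 : ℕ) : ℤ) by norm_num, zpow_neg, zpow_natCast]
  rw [hL, h]
  have hfac : (Nat.factorial 2 : ℂ) = 2 := by norm_num [Nat.factorial]
  rw [hfac]
  unfold lipC
  congr 1
  refine tsum_congr fun d => ?_
  have hexp : cexp (2 * (Real.pi : ℂ) * I *
      (((⟨(m : ℂ) * (τ : ℂ) + (x : ℂ), qx_im_pos τ x m⟩ : ℍ) : ℂ))) ^ (d : ℕ) =
      eR x ^ (d : ℕ) * qT τ ^ ((m : ℕ) * (d : ℕ)) := by
    unfold eR qT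
    rw [← Complex.exp_nat_mul, ← Complex.exp_nat_mul, ← Complex.exp_nat_mul, ← Complex.exp_add]
    congr 1
    show ((d : ℕ) : ℂ) * (2 * (Real.pi : ℂ) * I * ((m : ℂ) * (τ : ℂ) + (x : ℂ))) = _
    push_cast
    ring
  rw [hexp]

theorem qx_lip_neg (τ : ℍ) (x : ℝ) (m : ℕ+) :
    ∑' j : ℤ, (-(m : ℂ) * (τ : ℂ) + (x : ℂ) + (j : ℂ)) ^ (-3 : ℤ) =
      -(lipC * ∑' d : ℕ+, ((d : ℕ) : ℂ) ^ 2 *
        (eR (-x) ^ (d : ℕ) * qT τ ^ ((m : ℕ) * (d : ℕ)))) := by
  rw [← qx_lip_pos τ (-x) m, ← tsum_neg]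
  rw [← (Equiv.neg ℤ).tsum_eq]
  refine tsum_congr fun j => ?_
  have h : -(m : ℂ) * (τ : ℂ) + (x : ℂ) + (((Equiv.neg ℤ) j : ℤ) : ℂ) =
      -((m : ℂ) * (τ : ℂ) + ((-x : ℝ) : ℂ) + (j : ℂ)) := by
    simp only [Equiv.neg_apply]
    push_cast
    ring
  rw [h, show (-3 : ℤ) = -((3 : ℕ) : ℤ) by norm_num, zpow_neg, zpow_neg, zpow_natCast,
    zpow_natCast, Odd.neg_pow (by decide), inv_neg]

end Fermat.Agent.S48G1.ThetaQ
end
end MergeWrap_S48_G1_ThetaQExpLip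

section MergeWrap_S48_G1_ThetaQExpIface -- from S48/G1/ThetaQExpIface.lean

/-!
# S48 THETA1 (B): interface between the `q`-expansion (helper1) and the final step (helper92)

* `cB N n` : the `q`-coefficients of `Θ = bigTheta N`;
* `HasSumBigTheta N` (H1, helper1) : `Θ(τ) = ∑_n cB N n q^n`, `q = qT τ = exp(2 π i τ)`;
* `DkBern N` (H2, helper1) : `Dk N k = -(4 π³ i / 3) B₃(k / N)`.

Final step (helper92): `H1 → H2 → parseval_c0 → ∃ M > 0, M • qExpansion 1 (thetaMF N) ∈ ZSer`.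
-/

set_option autoImplicit false

noncomputable section

namespace Fermat.Agent.S48G1.ThetaQ

open Fermat.Agent.S48G1.Theta

/-- the `q`-coefficients of `Θ`. -/
def cB (N : ℕ) [NeZero N] (n : ℕ) : ℂ :=
  if n = 0 then ((c0 N : ℝ) : ℂ)
  else ((N : ℂ) ^ 3)⁻¹ * lipC * ∑ d ∈ n.divisors, (d : ℂ) ^ 2 * (-2 * Dk N ((d : ℕ) : ZMod N))

/-- **(H1)** the `q`-expansion of `Θ`. -/
def HasSumBigTheta (N : ℕ) [NeZero N] : Prop :=
  ∀ τ : UpperHalfPlane, HasSum (fun n : ℕ => cB N n * qT τ ^ n) (bigTheta N τ)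

/-- **(H2)** the Fourier transform of `Sr` is the third Bernoulli polynomial. -/
def DkBern (N : ℕ) [NeZero N] : Prop :=
  ∀ k : ZMod N, Dk N k =
    -(4 * (Real.pi : ℂ) ^ 3 * Complex.I / 3) * ((bern3 ((k.val : ℝ) / (N : ℝ)) : ℝ) : ℂ)

end Fermat.Agent.S48G1.ThetaQ
end
end MergeWrap_S48_G1_ThetaQExpIface

section MergeWrap_S48_G1_ThetaMF -- from S48/G1/ThetaMF.lean

/-!
# S48 THETA1 (helper92): the weighted lattice sums are modular forms

* `summable_wlat`, `wlat_slash` (`wlat w ∣[3] γ = wlat (w ∘ (· ᵥ* γ⁻¹))`),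
* `wlatMF N w : ModularForm Γ(N) 3`,
* `wlatG1 N w hw : ModularForm (G1 N) 3` for `Γ₁(N)`-invariant weight functions.
-/

set_option autoImplicit false

noncomputable section

namespace Fermat.Agent.S48G1.Theta

open UpperHalfPlane EisensteinSeries ModularForm Matrix CongruenceSubgroup Filter Topology
open scoped MatrixGroups

variable {N : ℕ}

/-- reduction mod `N` of an integral matrix of determinant one. -/
def redMat (N : ℕ) (γ : SL(2, ℤ)) : Matrix (Fin 2) (Fin 2) (ZMod N) :=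
  (γ : Matrix (Fin 2) (Fin 2) ℤ).map (Int.castRingHom (ZMod N))

theorem redMat_apply (γ : SL(2, ℤ)) (i j : Fin 2) : redMat N γ i j = ((γ i j : ℤ) : ZMod N) := rfl

theorem redMat_mul (γ γ' : SL(2, ℤ)) : redMat N (γ * γ') = redMat N γ * redMat N γ' := by
  unfold redMat
  rw [Matrix.SpecialLinearGroup.coe_mul]
  exact Matrix.map_mul

theorem redMat_one : redMat N 1 = 1 := by
  unfold redMat
  rw [Matrix.SpecialLinearGroup.coe_one]
  exact Matrix.map_one _ (map_zero _) (map_one _)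

theorem cast_comp_vecMul (v : Fin 2 → ℤ) (γ : SL(2, ℤ)) :
    (((↑) : ℤ → ZMod N) ∘ (v ᵥ* (γ : Matrix (Fin 2) (Fin 2) ℤ))) =
      (((↑) : ℤ → ZMod N) ∘ v) ᵥ* redMat N γ := by
  have := RingHom.map_vecMul (m := Fin 2) (n := Fin 2) (Int.castRingHom (ZMod N))
    (γ : Matrix (Fin 2) (Fin 2) ℤ) v
  funext i
  simpa [redMat, Function.comp_def] using this i

/-- right multiplication by `γ` on `ℤ²`. -/
def vecMulEquiv (γ : SL(2, ℤ)) : (Fin 2 → ℤ) ≃ (Fin 2 → ℤ) where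
  toFun v := v ᵥ* (γ : Matrix (Fin 2) (Fin 2) ℤ)
  invFun v := v ᵥ* ((γ⁻¹ : SL(2, ℤ)) : Matrix (Fin 2) (Fin 2) ℤ)
  left_inv v := by
    simp only [vecMul_vecMul, ← Matrix.SpecialLinearGroup.coe_mul, mul_inv_cancel,
      Matrix.SpecialLinearGroup.coe_one, vecMul_one]
  right_inv v := by
    simp only [vecMul_vecMul, ← Matrix.SpecialLinearGroup.coe_mul, inv_mul_cancel,
      Matrix.SpecialLinearGroup.coe_one, vecMul_one]

theorem vecMulEquiv_apply (γ : SL(2, ℤ)) (v : Fin 2 → ℤ) :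
    vecMulEquiv γ v = v ᵥ* (γ : Matrix (Fin 2) (Fin 2) ℤ) := rfl

theorem vecMul_inv_vecMul (γ : SL(2, ℤ)) (v : Fin 2 → ℤ) :
    (v ᵥ* (γ : Matrix (Fin 2) (Fin 2) ℤ)) ᵥ* ((γ⁻¹ : SL(2, ℤ)) : Matrix (Fin 2) (Fin 2) ℤ) = v :=
  (vecMulEquiv γ).left_inv v

/-- a bound for a weight function. -/
theorem exists_bound_w [NeZero N] (w : (Fin 2 → ZMod N) → ℂ) :
    ∃ C : ℝ, 0 ≤ C ∧ ∀ a, ‖w a‖ ≤ C := by
  refine ⟨∑ a : Fin 2 → ZMod N, ‖w a‖, Finset.sum_nonneg fun _ _ => norm_nonneg _, fun a => ?_⟩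
  exact Finset.single_le_sum (f := fun a => ‖w a‖) (fun _ _ => norm_nonneg _) (Finset.mem_univ a)

theorem summable_norm_wlat [NeZero N] (w : (Fin 2 → ZMod N) → ℂ) (τ : ℍ) :
    Summable fun v : Fin 2 → ℤ => ‖w ((↑) ∘ v) * eisSummand 3 v τ‖ := by
  obtain ⟨C, hC0, hC⟩ := exists_bound_w w
  refine Summable.of_nonneg_of_le (fun _ => norm_nonneg _) (fun v => ?_)
    ((summable_norm_eisSummand (k := 3) le_rfl τ).mul_left C)
  rw [norm_mul]
  exact mul_le_mul_of_nonneg_right (hC _) (norm_nonneg _)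

theorem summable_wlat [NeZero N] (w : (Fin 2 → ZMod N) → ℂ) (τ : ℍ) :
    Summable fun v : Fin 2 → ℤ => w ((↑) ∘ v) * eisSummand 3 v τ :=
  (summable_norm_wlat w τ).of_norm

/-- the slash action on weighted lattice sums. -/
theorem wlat_slash (w : (Fin 2 → ZMod N) → ℂ) (γ : SL(2, ℤ)) :
    wlat N w ∣[(3 : ℤ)] γ = wlat N (fun a => w (a ᵥ* redMat N γ⁻¹)) := by
  ext1 z
  simp_rw [SL_slash_apply, _root_.zpow_neg,
    mul_inv_eq_iff_eq_mul₀ (zpow_ne_zero _ <| denom_ne_zero _ z),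
    wlat, eisSummand_SL2_apply, ← tsum_mul_right]
  rw [← (vecMulEquiv γ).tsum_eq (fun u : Fin 2 → ℤ =>
    w ((((↑) : ℤ → ZMod N) ∘ u) ᵥ* redMat N γ⁻¹) * eisSummand 3 u z * denom γ z ^ (3 : ℤ))]
  refine tsum_congr fun v => ?_
  have h2 : ((((↑) : ℤ → ZMod N) ∘ (v ᵥ* (γ : Matrix (Fin 2) (Fin 2) ℤ))) ᵥ* redMat N γ⁻¹) =
      ((↑) : ℤ → ZMod N) ∘ v := by
    rw [← cast_comp_vecMul, vecMul_inv_vecMul]
  simp only [vecMulEquiv_apply, h2]
  ring

theorem redMat_eq_one_of_mem_Gamma {γ : SL(2, ℤ)} (h : γ ∈ Gamma N) : redMat N γ = 1 := by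
  have h1 := Gamma_mem'.mp h
  have h2 := congrArg (fun A : SL(2, ZMod N) => (A : Matrix (Fin 2) (Fin 2) (ZMod N))) h1
  simpa [redMat] using h2

/-- weighted lattice sums as slash invariant forms of level `Γ(N)`. -/
def wlatSIF (N : ℕ) (w : (Fin 2 → ZMod N) → ℂ) : SlashInvariantForm (Gamma N) 3 where
  toFun := wlat N w
  slash_action_eq' A hA := by
    obtain ⟨A, (hA : A ∈ Γ(N)), rfl⟩ := hA
    show wlat N w ∣[(3 : ℤ)] A = wlat N w
    rw [wlat_slash, redMat_eq_one_of_mem_Gamma ((Gamma N).inv_mem hA)]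
    simp

theorem wlatSIF_apply (w : (Fin 2 → ZMod N) → ℂ) (z : ℍ) : wlatSIF N w z = wlat N w z := rfl

theorem coe_wlatSIF (w : (Fin 2 → ZMod N) → ℂ) : ⇑(wlatSIF N w) = wlat N w := rfl

/-- The weighted lattice sums converge locally uniformly on `ℍ`. -/
theorem wlat_tendstoLocallyUniformly [NeZero N] (w : (Fin 2 → ZMod N) → ℂ) :
    TendstoLocallyUniformly
      (fun (s : Finset (Fin 2 → ℤ)) ↦ (∑ x ∈ s, w ((↑) ∘ x) * eisSummand 3 x ·))
      (wlat N w ·) Filter.atTop := by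
  obtain ⟨C, hC0, hC⟩ := exists_bound_w w
  have hk' : (2 : ℝ) < (3 : ℤ) := by norm_num
  have p_sum : Summable fun x : Fin 2 → ℤ ↦ ‖x‖ ^ (-(3 : ℤ)) :=
    mod_cast (summable_one_div_norm_rpow hk')
  simp only [tendstoLocallyUniformly_iff_forall_isCompact, wlat]
  intro K hK
  obtain ⟨A, B, hB, HABK⟩ := subset_verticalStrip_of_isCompact hK
  refine (tendstoUniformlyOn_tsum
    (hu := (p_sum.mul_left <| r ⟨⟨A, B⟩, hB⟩ ^ (-(3 : ℤ) : ℝ)).mul_left C)
    (fun p z hz ↦ ?_)).mono HABK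
  rw [norm_mul]
  refine mul_le_mul (hC _) ?_ (norm_nonneg _) hC0
  simpa only [eisSummand, one_div, ← _root_.zpow_neg, norm_zpow, ← Real.rpow_intCast,
    Int.cast_neg] using summand_bound_of_mem_verticalStrip (k := (3 : ℤ)) (by positivity) p hB hz

lemma wlat_tendstoLocallyUniformlyOn [NeZero N] (w : (Fin 2 → ZMod N) → ℂ) :
    TendstoLocallyUniformlyOn (fun (s : Finset (Fin 2 → ℤ)) ↦
      ↑ₕ(fun (z : ℍ) ↦ ∑ x ∈ s, w ((↑) ∘ x) * eisSummand 3 x z)) (↑ₕ(wlatSIF N w))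
          Filter.atTop {z : ℂ | 0 < z.im} := by
  rw [← upperHalfPlaneSet, ← UpperHalfPlane.range_coe, ← Set.image_univ]
  apply TendstoLocallyUniformlyOn.comp (s := ⊤) _ _ _ (OpenPartialHomeomorph.continuousOn_symm _)
  · simp only [Set.top_eq_univ, tendstoLocallyUniformlyOn_univ]
    apply wlat_tendstoLocallyUniformly w
  · simp only [IsOpenEmbedding.toOpenPartialHomeomorph_target, Set.top_eq_univ,
      Set.mapsTo_range_iff, Set.mem_univ, forall_const]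

open scoped Manifold in
/-- weighted lattice sums are holomorphic. -/
theorem wlatSIF_mdifferentiable [NeZero N] (w : (Fin 2 → ZMod N) → ℂ) :
    MDiff (wlatSIF N w) := by
  intro τ
  suffices DifferentiableAt ℂ (↑ₕ(wlatSIF N w)) τ.1 by
    convert!
      MDifferentiableAt.comp τ (DifferentiableAt.mdifferentiableAt this) τ.mdifferentiable_coe
    exact funext fun z ↦ (comp_ofComplex (wlatSIF N w) z).symm
  refine DifferentiableOn.differentiableAt ?_ (isOpen_upperHalfPlaneSet.mem_nhds τ.2)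
  exact (wlat_tendstoLocallyUniformlyOn w).differentiableOn
    (Eventually.of_forall fun s ↦ DifferentiableOn.fun_sum
    fun x _ ↦ by
      have h1 := (eisSummand_extension_differentiableOn 3 x).const_smul (w ((↑) ∘ x))
      refine h1.congr fun z _ => ?_
      simp [Function.comp_def]) isOpen_upperHalfPlaneSet

theorem norm_wlat_le [NeZero N] (w : (Fin 2 → ZMod N) → ℂ) {C : ℝ}
    (hC : ∀ a, ‖w a‖ ≤ C) (z : ℍ) :
    ‖wlat N w z‖ ≤ C * ∑' (x : Fin 2 → ℤ), ‖eisSummand 3 x z‖ := by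
  rw [wlat, ← tsum_mul_left]
  refine le_trans (norm_tsum_le_tsum_norm (summable_norm_wlat w z)) ?_
  refine (summable_norm_wlat w z).tsum_le_tsum (fun x => ?_)
    ((summable_norm_eisSummand (k := 3) le_rfl z).mul_left C)
  rw [norm_mul]
  exact mul_le_mul_of_nonneg_right (hC _) (norm_nonneg _)

/-- weighted lattice sums are bounded at `i∞`. -/
theorem isBoundedAtImInfty_wlat [NeZero N] (w : (Fin 2 → ZMod N) → ℂ) :
    IsBoundedAtImInfty (wlat N w) := by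
  obtain ⟨C, hC0, hC⟩ := exists_bound_w w
  rw [UpperHalfPlane.isBoundedAtImInfty_iff]
  refine ⟨C * ∑' (x : Fin 2 → ℤ), r ⟨⟨N, 2⟩, Nat.ofNat_pos⟩ ^ (-(3 : ℤ)) * ‖x‖ ^ (-(3 : ℤ)), 2, ?_⟩
  intro z hz
  obtain ⟨n, hn⟩ := (ModularGroup_T_zpow_mem_verticalStrip z (NeZero.pos N))
  rw [← wlatSIF_apply, ← SlashInvariantForm.T_zpow_width_invariant N 3 n (wlatSIF N w) z, wlatSIF_apply]
  refine le_trans (norm_wlat_le w hC _) (mul_le_mul_of_nonneg_left ?_ hC0)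
  have hk' : (2 : ℝ) < (3 : ℤ) := by norm_num
  apply (summable_norm_eisSummand (k := 3) le_rfl _).tsum_le_tsum _
  · exact_mod_cast (summable_one_div_norm_rpow hk').mul_left <| r ⟨⟨N, 2⟩, Nat.ofNat_pos⟩ ^ (-(3 : ℤ))
  · intro x
    simp_rw [eisSummand, norm_zpow]
    exact_mod_cast
      summand_bound_of_mem_verticalStrip (k := (3 : ℤ)) (lt_trans two_pos hk').le x two_pos
      (verticalStrip_anti_right N hz hn)

/-- every `SL(2,ℤ)`-translate of a weighted lattice sum is bounded at `i∞`. -/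
theorem isBoundedAtImInfty_wlat_slash [NeZero N] (w : (Fin 2 → ZMod N) → ℂ) (γ : SL(2, ℤ)) :
    IsBoundedAtImInfty (wlat N w ∣[(3 : ℤ)] γ) := by
  rw [wlat_slash]
  exact isBoundedAtImInfty_wlat _

/-- weighted lattice sums as modular forms of level `Γ(N)`. -/
def wlatMF (N : ℕ) [NeZero N] (w : (Fin 2 → ZMod N) → ℂ) : ModularForm Γ(N) 3 where
  toFun := wlatSIF N w
  slash_action_eq' := (wlatSIF N w).slash_action_eq'
  holo' := wlatSIF_mdifferentiable w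
  bdd_at_cusps' {c} hc := by
    rw [Subgroup.IsArithmetic.isCusp_iff_isCusp_SL2Z] at hc
    rw [OnePoint.isBoundedAt_iff_forall_SL2Z hc]
    exact fun γ _ ↦ isBoundedAtImInfty_wlat_slash w γ

theorem coe_wlatMF [NeZero N] (w : (Fin 2 → ZMod N) → ℂ) : ⇑(wlatMF N w) = wlat N w := rfl

/-- weighted lattice sums with a `Γ₁(N)`-invariant weight function as modular forms of level
`Γ₁(N)`. -/
def wlatG1 (N : ℕ) [NeZero N] (w : (Fin 2 → ZMod N) → ℂ)
    (hw : ∀ γ : SL(2, ℤ), γ ∈ Gamma1 N → ∀ a, w (a ᵥ* redMat N γ) = w a) :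
    ModularForm (G1 N) 3 where
  toFun := wlat N w
  slash_action_eq' A hA := by
    obtain ⟨A, hA, rfl⟩ := hA
    show wlat N w ∣[(3 : ℤ)] A = wlat N w
    rw [wlat_slash]
    congr 1
    funext a
    exact hw A⁻¹ ((Gamma1 N).inv_mem hA) a
  holo' := wlatSIF_mdifferentiable w
  bdd_at_cusps' {c} hc := by
    rw [Subgroup.IsArithmetic.isCusp_iff_isCusp_SL2Z] at hc
    rw [OnePoint.isBoundedAt_iff_forall_SL2Z hc]
    exact fun γ _ ↦ isBoundedAtImInfty_wlat_slash w γ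

theorem coe_wlatG1 [NeZero N] (w : (Fin 2 → ZMod N) → ℂ)
    (hw : ∀ γ : SL(2, ℤ), γ ∈ Gamma1 N → ∀ a, w (a ᵥ* redMat N γ) = w a) :
    ⇑(wlatG1 N w hw) = wlat N w := rfl

end Fermat.Agent.S48G1.Theta
end
end MergeWrap_S48_G1_ThetaMF

section MergeWrap_S48_G1_ThetaForm -- from S48/G1/ThetaForm.lean

/-!
# S48 THETA1 (helper92): the form `θ = Θ / c0` on `Γ₁(N)`

* `wTheta_invariant`: the weight function of `Θ` is `Γ₁(N)`-invariant,
* `bigThetaMF N : ModularForm (G1 N) 3` (underlying function `bigTheta N`),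
* `c0_pos`, `thetaMF N = (c0 N)⁻¹ • bigThetaMF N`.
-/

set_option autoImplicit false

noncomputable section

namespace Fermat.Agent.S48G1.Theta

open UpperHalfPlane EisensteinSeries ModularForm Matrix CongruenceSubgroup Filter Topology
open scoped MatrixGroups

variable {N : ℕ}

theorem vecMul_redMat_zero (a : Fin 2 → ZMod N) (γ : SL(2, ℤ)) :
    (a ᵥ* redMat N γ) 0 = a 0 * ((γ 0 0 : ℤ) : ZMod N) + a 1 * ((γ 1 0 : ℤ) : ZMod N) := by
  simp [Matrix.vecMul, dotProduct, Fin.sum_univ_two, redMat_apply]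

theorem vecMul_redMat_one (a : Fin 2 → ZMod N) (γ : SL(2, ℤ)) :
    (a ᵥ* redMat N γ) 1 = a 0 * ((γ 0 1 : ℤ) : ZMod N) + a 1 * ((γ 1 1 : ℤ) : ZMod N) := by
  simp [Matrix.vecMul, dotProduct, Fin.sum_univ_two, redMat_apply]

theorem wTheta_invariant (γ : SL(2, ℤ)) (hγ : γ ∈ Gamma1 N) (a : Fin 2 → ZMod N) :
    wTheta N (a ᵥ* redMat N γ) = wTheta N a := by
  obtain ⟨h00, h11, h10⟩ := (Gamma1_mem N γ).mp hγ
  unfold wTheta
  rw [vecMul_redMat_zero, vecMul_redMat_one, h00, h11, h10, mul_one, mul_zero, add_zero, mul_one]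
  by_cases ha : a 0 = 0
  · rw [if_pos ha, if_pos ha, ha, zero_mul, zero_add]
  · rw [if_neg ha, if_neg ha]

/-- `Θ` as a modular form of weight `3` on `Γ₁(N)`. -/
def bigThetaMF (N : ℕ) [NeZero N] : ModularForm (G1 N) 3 :=
  wlatG1 N (wTheta N) wTheta_invariant

theorem coe_bigThetaMF [NeZero N] : ⇑(bigThetaMF N) = bigTheta N := rfl

theorem c0_pos (hN : 3 ≤ N) [NeZero N] : 0 < c0 N := by
  unfold c0
  have h1 := Sr_one_pos (N := N) hN
  refine lt_of_lt_of_le (pow_pos h1 2) ?_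
  exact Finset.single_le_sum (f := fun a : ZMod N => Sr N a ^ 2) (fun a _ => sq_nonneg _)
    (Finset.mem_univ (1 : ZMod N))

/-- the primitive element `θ = Θ / c0`. -/
def thetaMF (N : ℕ) [NeZero N] : ModularForm (G1 N) 3 :=
  (((c0 N : ℝ) : ℂ)⁻¹) • bigThetaMF N

theorem coe_thetaMF [NeZero N] : ⇑(thetaMF N) = (((c0 N : ℝ) : ℂ)⁻¹) • bigTheta N := rfl

theorem thetaMF_apply [NeZero N] (τ : ℍ) : thetaMF N τ = ((c0 N : ℝ) : ℂ)⁻¹ * bigTheta N τ := rfl

end Fermat.Agent.S48G1.Theta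
end
end MergeWrap_S48_G1_ThetaForm

section MergeWrap_S48_G1_ThetaLim -- from S48/G1/ThetaLim.lean

/-!
# S48 THETA1 (helper92): limits at `i∞` of weighted lattice sums

`tendsto_wlat`: `wlat N w τ → ∑_a w(0, a) Sr N a` as `τ → i∞` (Tannery, after translating `τ`
into a vertical strip of width `N`).
-/

set_option autoImplicit false

noncomputable section

namespace Fermat.Agent.S48G1.Theta

open UpperHalfPlane EisensteinSeries ModularForm Matrix CongruenceSubgroup Filter Topology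
open scoped MatrixGroups

variable {N : ℕ}

/-- a translate of `z` by a multiple of `N` lying in the vertical strip of width `N`. -/
def stripRep (N : ℕ) [NeZero N] (z : ℍ) : ℍ :=
  ModularGroup.T ^ ((N : ℤ) *
    Classical.choose (ModularGroup_T_zpow_mem_verticalStrip z (NeZero.pos N))) • z

theorem stripRep_mem [NeZero N] (z : ℍ) : stripRep N z ∈ verticalStrip N z.im :=
  Classical.choose_spec (ModularGroup_T_zpow_mem_verticalStrip z (NeZero.pos N))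

theorem stripRep_im [NeZero N] (z : ℍ) : (stripRep N z).im = z.im := by
  unfold stripRep
  rw [modular_T_zpow_smul]
  simp

theorem wlat_stripRep [NeZero N] (w : (Fin 2 → ZMod N) → ℂ) (z : ℍ) :
    wlat N w (stripRep N z) = wlat N w z := by
  rw [← wlatSIF_apply, ← wlatSIF_apply]
  exact SlashInvariantForm.T_zpow_width_invariant N 3 _ (wlatSIF N w) z

theorem tendsto_inv_im_cube : Tendsto (fun z : ℍ => (z.im ^ 3)⁻¹) atImInfty (𝓝 0) := by
  have h1 : Tendsto (fun z : ℍ => z.im) atImInfty atTop := tendsto_comap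
  exact tendsto_inv_atTop_zero.comp ((tendsto_pow_atTop (n := 3) (by norm_num)).comp h1)

theorem norm_eisSummand_le (x : Fin 2 → ℤ) (hx : x 0 ≠ 0) (z : ℍ) :
    ‖eisSummand 3 x z‖ ≤ (z.im ^ 3)⁻¹ := by
  have hz : 0 < z.im := z.im_pos
  have h1 : z.im ≤ ‖(x 0 : ℂ) * (z : ℂ) + x 1‖ := by
    have h2 : |((x 0 : ℂ) * (z : ℂ) + x 1).im| ≤ ‖(x 0 : ℂ) * (z : ℂ) + x 1‖ :=
      Complex.abs_im_le_norm _
    have h3 : ((x 0 : ℂ) * (z : ℂ) + x 1).im = (x 0 : ℝ) * z.im := by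
      simp [Complex.add_im, Complex.mul_im]
    rw [h3, abs_mul, abs_of_pos hz] at h2
    have h4 : (1 : ℝ) ≤ |(x 0 : ℝ)| := by
      have : (1 : ℤ) ≤ |x 0| := Int.one_le_abs hx
      exact_mod_cast this
    calc z.im = 1 * z.im := (one_mul _).symm
      _ ≤ |(x 0 : ℝ)| * z.im := mul_le_mul_of_nonneg_right h4 hz.le
      _ ≤ _ := h2
  have h5 : ‖eisSummand 3 x z‖ = (‖(x 0 : ℂ) * (z : ℂ) + x 1‖ ^ 3)⁻¹ := by
    rw [eisSummand, norm_zpow, _root_.zpow_neg]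
    norm_cast
  rw [h5]
  exact inv_anti₀ (by positivity) (pow_le_pow_left₀ hz.le h1 3)

theorem eisSummand_of_zero (x : Fin 2 → ℤ) (hx : x 0 = 0) (z : ℍ) :
    eisSummand 3 x z = ((x 1 : ℂ) ^ 3)⁻¹ := by
  rw [eisSummand, hx, _root_.zpow_neg]
  simp only [Int.cast_zero, zero_mul, zero_add]
  norm_cast

theorem tendsto_eisSummand_stripRep [NeZero N] (x : Fin 2 → ℤ) :
    Tendsto (fun z : ℍ => eisSummand 3 x (stripRep N z)) atImInfty
      (𝓝 (if x 0 = 0 then ((x 1 : ℂ) ^ 3)⁻¹ else 0)) := by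
  by_cases hx : x 0 = 0
  · rw [if_pos hx]
    simp only [eisSummand_of_zero x hx]
    exact tendsto_const_nhds
  · rw [if_neg hx]
    refine squeeze_zero_norm (fun z => ?_) tendsto_inv_im_cube
    have := norm_eisSummand_le x hx (stripRep N z)
    rwa [stripRep_im] at this

/-- **limit at `i∞` of a weighted lattice sum** (as a sum over the lattice). -/
theorem tendsto_wlat_tsum [NeZero N] (w : (Fin 2 → ZMod N) → ℂ) :
    Tendsto (wlat N w) atImInfty
      (𝓝 (∑' x : Fin 2 → ℤ, w ((↑) ∘ x) * (if x 0 = 0 then ((x 1 : ℂ) ^ 3)⁻¹ else 0))) := by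
  obtain ⟨C, hC0, hC⟩ := exists_bound_w w
  have hfun : wlat N w = fun z : ℍ =>
      ∑' x : Fin 2 → ℤ, w ((↑) ∘ x) * eisSummand 3 x (stripRep N z) := by
    funext z
    rw [← wlat_stripRep w z]
    rfl
  rw [hfun]
  have hk' : (2 : ℝ) < (3 : ℤ) := by norm_num
  have hsum : Summable fun x : Fin 2 → ℤ =>
      C * (r ⟨⟨N, 2⟩, Nat.ofNat_pos⟩ ^ (-(3 : ℤ)) * ‖x‖ ^ (-(3 : ℤ))) := by
    refine Summable.mul_left C ?_
    exact_mod_cast (summable_one_div_norm_rpow hk').mul_left <|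
      r ⟨⟨N, 2⟩, Nat.ofNat_pos⟩ ^ (-(3 : ℤ))
  refine tendsto_tsum_of_dominated_convergence hsum
    (fun x => (tendsto_eisSummand_stripRep x).const_mul _) ?_
  refine (atImInfty_mem _).mpr ⟨2, fun z hz x => ?_⟩
  show ‖w ((↑) ∘ x) * eisSummand 3 x (stripRep N z)‖ ≤ _
  rw [norm_mul]
  refine mul_le_mul (hC _) ?_ (norm_nonneg _) hC0
  simp_rw [eisSummand, norm_zpow]
  exact_mod_cast
    summand_bound_of_mem_verticalStrip (k := (3 : ℤ)) (lt_trans two_pos hk').le x two_pos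
      (verticalStrip_anti_right N hz (stripRep_mem z))

theorem cast_comp_vec (n : ℤ) :
    (((↑) : ℤ → ZMod N) ∘ ![0, n]) = ![0, (n : ZMod N)] := by
  funext i
  fin_cases i <;> simp

/-- the limit as a finite sum over the residues. -/
theorem tsum_limit_eq [NeZero N] (w : (Fin 2 → ZMod N) → ℂ) :
    ∑' x : Fin 2 → ℤ, w ((↑) ∘ x) * (if x 0 = 0 then ((x 1 : ℂ) ^ 3)⁻¹ else 0) =
      ∑ a : ZMod N, w ![0, a] * ((Sr N a : ℝ) : ℂ) := by
  have hinj : Function.Injective fun n : ℤ => (![0, n] : Fin 2 → ℤ) := by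
    intro n m h
    have := congrFun h 1
    simpa using this
  have hsupp : Function.support (fun x : Fin 2 → ℤ =>
      w ((↑) ∘ x) * (if x 0 = 0 then ((x 1 : ℂ) ^ 3)⁻¹ else 0)) ⊆
      Set.range fun n : ℤ => (![0, n] : Fin 2 → ℤ) := by
    intro x hx
    rw [Function.mem_support] at hx
    have hx0 : x 0 = 0 := by
      by_contra h
      exact hx (by rw [if_neg h, mul_zero])
    refine ⟨x 1, ?_⟩
    funext i
    fin_cases i
    · simpa using hx0.symm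
    · simp
  rw [← hinj.tsum_eq hsupp]
  simp only [cast_comp_vec, Matrix.cons_val_zero, if_true, Matrix.cons_val_one]
  -- now a sum over `n : ℤ`
  have h1 : ∀ a : ZMod N, ((Sr N a : ℝ) : ℂ) =
      ∑' n : ℤ, (((if (n : ZMod N) = a then ((n : ℝ) ^ 3)⁻¹ else 0 : ℝ)) : ℂ) := by
    intro a
    rw [Sr, Complex.ofReal_tsum]
  have h2 : ∀ a : ZMod N, Summable fun n : ℤ =>
      w ![0, a] * (((if (n : ZMod N) = a then ((n : ℝ) ^ 3)⁻¹ else 0 : ℝ)) : ℂ) := by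
    intro a
    refine Summable.mul_left _ ?_
    exact_mod_cast (Complex.summable_ofReal.mpr (summable_SrTerm a))
  simp_rw [h1, ← tsum_mul_left]
  rw [← Summable.tsum_finsetSum (fun a _ => h2 a)]
  refine tsum_congr fun n => ?_
  rw [Finset.sum_eq_single (n : ZMod N)]
  · rw [if_pos rfl]
    push_cast
    rfl
  · intro b _ hb
    rw [if_neg (Ne.symm hb)]
    simp
  · intro h
    exact absurd (Finset.mem_univ _) h

/-- **limit at `i∞` of a weighted lattice sum.** -/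
theorem tendsto_wlat [NeZero N] (w : (Fin 2 → ZMod N) → ℂ) :
    Tendsto (wlat N w) atImInfty (𝓝 (∑ a : ZMod N, w ![0, a] * ((Sr N a : ℝ) : ℂ))) := by
  rw [← tsum_limit_eq]
  exact tendsto_wlat_tsum w

end Fermat.Agent.S48G1.Theta
end
end MergeWrap_S48_G1_ThetaLim

section MergeWrap_S48_G1_ThetaTrans -- from S48/G1/ThetaTrans.lean

/-!
# S48 THETA1 (helper92): the translates of `θ`; reduction of `ThetaAt N 3` to the `q`-expansion

* `limTrans N k = c0⁻¹ ∑_a [a k₁₀ = 0] Sr (a k₁₁) Sr a`: the limit at `i∞` of `θ ∣[3] k⁻¹`,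
* `limTrans_ne_one`: `≠ 1` for `k ∉ Γ₁(N)` (Cauchy–Schwarz; `Sr 1` is the strict maximum),
* `thetaAt_of_qExp`: `ThetaAt N 3` from the `q`-expansion statement (seat (B), helper1).
-/

set_option autoImplicit false

noncomputable section

namespace Fermat.Agent.S48G1.Theta

open UpperHalfPlane EisensteinSeries ModularForm Matrix CongruenceSubgroup Filter Topology
open Fermat.Agent.S23
open scoped MatrixGroups

variable {N : ℕ}

/-- the real weight `u_a = [a k₁₀ = 0] Sr (a k₁₁)` of the translate by `k`. -/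
def uTrans (N : ℕ) (k : SL(2, ℤ)) (a : ZMod N) : ℝ :=
  if a * ((k 1 0 : ℤ) : ZMod N) = 0 then Sr N (a * ((k 1 1 : ℤ) : ZMod N)) else 0

theorem wTheta_vecMul (k : SL(2, ℤ)) (a : ZMod N) :
    wTheta N (![0, a] ᵥ* redMat N k) = ((uTrans N k a : ℝ) : ℂ) := by
  unfold wTheta uTrans
  rw [vecMul_redMat_zero, vecMul_redMat_one]
  simp only [Matrix.cons_val_zero, Matrix.cons_val_one, zero_mul, zero_add]
  split_ifs <;> simp

theorem det_mod (k : SL(2, ℤ)) :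
    ((k 0 0 : ℤ) : ZMod N) * ((k 1 1 : ℤ) : ZMod N) -
      ((k 0 1 : ℤ) : ZMod N) * ((k 1 0 : ℤ) : ZMod N) = 1 := by
  have h := k.2
  rw [Matrix.det_fin_two] at h
  have h2 := congrArg (fun t : ℤ => (t : ZMod N)) h
  simpa using h2

theorem sum_uTrans_sq_le [NeZero N] (k : SL(2, ℤ)) :
    ∑ a : ZMod N, uTrans N k a ^ 2 ≤ c0 N := by
  classical
  unfold c0
  have h1 : ∑ a : ZMod N, uTrans N k a ^ 2 =
      ∑ a ∈ Finset.univ.filter (fun a : ZMod N => a * ((k 1 0 : ℤ) : ZMod N) = 0),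
        Sr N (a * ((k 1 1 : ℤ) : ZMod N)) ^ 2 := by
    rw [Finset.sum_filter]
    refine Finset.sum_congr rfl fun a _ => ?_
    unfold uTrans
    split_ifs <;> simp
  rw [h1]
  have hinj : Set.InjOn (fun a : ZMod N => a * ((k 1 1 : ℤ) : ZMod N))
      (Finset.univ.filter (fun a : ZMod N => a * ((k 1 0 : ℤ) : ZMod N) = 0) : Finset (ZMod N)) := by
    intro a ha b hb hab
    simp only [Finset.coe_filter, Finset.mem_univ, true_and, Set.mem_ofPred_eq] at ha hb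
    simp only at hab
    have hd := det_mod (N := N) k
    calc a = a * (((k 0 0 : ℤ) : ZMod N) * ((k 1 1 : ℤ) : ZMod N) -
          ((k 0 1 : ℤ) : ZMod N) * ((k 1 0 : ℤ) : ZMod N)) := by rw [hd, mul_one]
      _ = ((k 0 0 : ℤ) : ZMod N) * (a * ((k 1 1 : ℤ) : ZMod N)) -
          ((k 0 1 : ℤ) : ZMod N) * (a * ((k 1 0 : ℤ) : ZMod N)) := by ring
      _ = ((k 0 0 : ℤ) : ZMod N) * (b * ((k 1 1 : ℤ) : ZMod N)) -
          ((k 0 1 : ℤ) : ZMod N) * (b * ((k 1 0 : ℤ) : ZMod N)) := by rw [hab, ha, hb]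
      _ = b * (((k 0 0 : ℤ) : ZMod N) * ((k 1 1 : ℤ) : ZMod N) -
          ((k 0 1 : ℤ) : ZMod N) * ((k 1 0 : ℤ) : ZMod N)) := by ring
      _ = b := by rw [hd, mul_one]
  rw [← Finset.sum_image (f := fun b : ZMod N => Sr N b ^ 2) hinj]
  exact Finset.sum_le_sum_of_subset_of_nonneg (Finset.subset_univ _) fun b _ _ => sq_nonneg _

/-- **Cauchy–Schwarz with equality case**: the limit of a nontrivial translate is not `c0`. -/
theorem sum_uTrans_mul_ne (hN : 3 ≤ N) [NeZero N] (k : SL(2, ℤ)) (hk : k ∉ Gamma1 N) :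
    ∑ a : ZMod N, uTrans N k a * Sr N a ≠ c0 N := by
  intro heq
  have hle := sum_uTrans_sq_le (N := N) k
  have hsq : ∑ a : ZMod N, (Sr N a - uTrans N k a) ^ 2 ≤ 0 := by
    have : ∑ a : ZMod N, (Sr N a - uTrans N k a) ^ 2 =
        c0 N - 2 * ∑ a : ZMod N, uTrans N k a * Sr N a + ∑ a : ZMod N, uTrans N k a ^ 2 := by
      unfold c0
      rw [Finset.mul_sum, ← Finset.sum_sub_distrib, ← Finset.sum_add_distrib]
      refine Finset.sum_congr rfl fun a _ => ?_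
      ring
    rw [this, heq]
    linarith
  have hzero : ∀ a : ZMod N, Sr N a - uTrans N k a = 0 := by
    intro a
    have h1 : (Sr N a - uTrans N k a) ^ 2 ≤ 0 := by
      refine le_trans ?_ hsq
      exact Finset.single_le_sum (f := fun a : ZMod N => (Sr N a - uTrans N k a) ^ 2)
        (fun a _ => sq_nonneg _) (Finset.mem_univ a)
    exact pow_eq_zero_iff (two_ne_zero) |>.mp (le_antisymm h1 (sq_nonneg _))
  have h1 := hzero 1
  have hpos := Sr_one_pos (N := N) hN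
  unfold uTrans at h1
  rw [one_mul, one_mul] at h1
  by_cases h10 : ((k 1 0 : ℤ) : ZMod N) = 0
  · rw [if_pos h10] at h1
    have h11 : ((k 1 1 : ℤ) : ZMod N) = 1 := by
      by_contra hne
      have := Sr_lt_Sr_one hN hne
      linarith
    apply hk
    rw [Gamma1_mem]
    refine ⟨?_, h11, h10⟩
    have hd := det_mod (N := N) k
    rw [h11, h10, mul_one, mul_zero, sub_zero] at hd
    exact hd
  · rw [if_neg h10] at h1
    linarith

/-- the limit at `i∞` of the translate of `θ` by `k⁻¹`. -/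
def limTrans (N : ℕ) [NeZero N] (k : SL(2, ℤ)) : ℂ :=
  ((c0 N : ℝ) : ℂ)⁻¹ * ((∑ a : ZMod N, uTrans N k a * Sr N a : ℝ) : ℂ)

theorem limTrans_ne_one (hN : 3 ≤ N) [NeZero N] (k : SL(2, ℤ)) (hk : k ∉ Gamma1 N) :
    limTrans N k ≠ 1 := by
  unfold limTrans
  have hc := c0_pos (N := N) hN
  have hc' : ((c0 N : ℝ) : ℂ) ≠ 0 := by exact_mod_cast hc.ne'
  intro h
  rw [inv_mul_eq_one₀ hc'] at h
  exact sum_uTrans_mul_ne hN k hk (by exact_mod_cast h.symm)

theorem tendsto_theta_slash [NeZero N] (g : SL(2, ℤ)) :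
    Tendsto (⇑(thetaMF N) ∣[(3 : ℤ)] g) atImInfty (𝓝 (limTrans N g⁻¹)) := by
  have h1 : (⇑(thetaMF N) ∣[(3 : ℤ)] g) =
      (((c0 N : ℝ) : ℂ)⁻¹) • wlat N (fun a => wTheta N (a ᵥ* redMat N g⁻¹)) := by
    have hb : bigTheta N = wlat N (wTheta N) := rfl
    rw [coe_thetaMF, SL_smul_slash, hb, wlat_slash]
  rw [h1]
  have h2 := (tendsto_wlat (N := N) (fun a => wTheta N (a ᵥ* redMat N g⁻¹))).const_mul
    (((c0 N : ℝ) : ℂ)⁻¹)
  have h3 : (∑ a : ZMod N, wTheta N (![0, a] ᵥ* redMat N g⁻¹) * ((Sr N a : ℝ) : ℂ)) =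
      ((∑ a : ZMod N, uTrans N g⁻¹ a * Sr N a : ℝ) : ℂ) := by
    push_cast
    refine Finset.sum_congr rfl fun a _ => ?_
    rw [wTheta_vecMul]
  rw [h3] at h2
  exact h2

theorem limTrans_one [NeZero N] (hN : 3 ≤ N) : limTrans N 1 = 1 := by
  unfold limTrans
  have hc := c0_pos (N := N) hN
  have hc' : ((c0 N : ℝ) : ℂ) ≠ 0 := by exact_mod_cast hc.ne'
  rw [inv_mul_eq_one₀ hc']
  congr 1
  unfold c0
  refine Finset.sum_congr rfl fun a _ => ?_
  unfold uTrans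
  simp [sq]

theorem tendsto_theta (hN : 3 ≤ N) [NeZero N] : Tendsto (thetaMF N) atImInfty (𝓝 1) := by
  have h := tendsto_theta_slash (N := N) 1
  rw [inv_one, limTrans_one hN] at h
  have h2 : (⇑(thetaMF N) ∣[(3 : ℤ)] (1 : SL(2, ℤ))) = ⇑(thetaMF N) := by
    rw [SL_slash]
    simp
  rwa [h2] at h

/-- **THETA1, reduced to the `q`-expansion** (seat (B)). -/
theorem thetaAt_of_qExp (hN : 3 ≤ N) [NeZero N]
    (hq : ∃ M : ℕ, 0 < M ∧ (M : ℂ) • qExpansion 1 (thetaMF N) ∈ ZSer) : ThetaAt N 3 := by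
  refine ⟨thetaMF N, hq, tendsto_theta hN, ?_⟩
  intro q hq'
  induction q using QuotientGroup.induction_on with
  | H h =>
    obtain ⟨g, hg⟩ : ∃ g : SL(2, ℤ),
        (Matrix.SpecialLinearGroup.mapGL ℝ g : GL (Fin 2) ℝ) = (h : GL (Fin 2) ℝ)⁻¹ := by
      obtain ⟨g0, hg0⟩ := h.2
      exact ⟨g0⁻¹, by rw [map_inv, hg0]⟩
    refine ⟨limTrans N g⁻¹, ?_, ?_⟩
    · apply limTrans_ne_one hN
      intro hmem
      apply hq'
      rw [QuotientGroup.eq, mul_one, Subgroup.mem_subgroupOf]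
      refine ⟨g, ?_, ?_⟩
      · have := (Gamma1 N).inv_mem hmem
        simpa using this
      · rw [hg]; rfl
    · have hq'' : SlashInvariantForm.quotientFunc (thetaMF N)
          (QuotientGroup.mk h : 𝒮ℒ ⧸ (G1 N).subgroupOf 𝒮ℒ) =
          ⇑(thetaMF N) ∣[(3 : ℤ)] (h : GL (Fin 2) ℝ)⁻¹ := rfl
      rw [hq'', ← hg]
      exact tendsto_theta_slash g

/-- `ThetaStatement` from the `q`-expansion statement. -/
theorem thetaStatement_of_qExp
    (hq : ∀ (N : ℕ) [NeZero N], 3 ≤ N →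
      ∃ M : ℕ, 0 < M ∧ (M : ℂ) • qExpansion 1 (thetaMF N) ∈ ZSer) : ThetaStatement :=
  fun N _ hN => ⟨3, thetaAt_of_qExp hN (hq N hN)⟩

end Fermat.Agent.S48G1.Theta
end
end MergeWrap_S48_G1_ThetaTrans

section MergeWrap_S48_G1_ThetaFinal -- from S48/G1/ThetaFinal.lean

/-!
# S48 THETA1: the final step (helper92)

From the `q`-expansion of `Θ` (H1), the Fourier transform of `Sr` (H2) and Parseval:
`θ = Θ / c0` has `q`-expansion `1 - (12 N / P) ∑_n (∑_{d ∣ n} d² b_d) q^n` with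
`b_d = r (2 r - N) (r - N)`, `r = d mod N`, and `P = ∑_k b_k²`.  Hence `P • qExpansion θ ∈ ZSer`.
-/

set_option autoImplicit false

noncomputable section

namespace Fermat.Agent.S48G1.ThetaQ

open Fermat.Agent.S48G1.Theta Fermat.Agent.S48G1 Fermat.Agent.S23
open UpperHalfPlane ModularForm Complex

variable {N : ℕ}

/-- `2 N³ B₃(r / N) = r (2 r - N) (r - N)`. -/
def bInt (N : ℕ) (r : ℤ) : ℤ := r * (2 * r - N) * (r - N)

theorem bern3_div (hN : N ≠ 0) (r : ℕ) :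
    bern3 ((r : ℝ) / (N : ℝ)) = (bInt N r : ℝ) / (2 * (N : ℝ) ^ 3) := by
  have hN' : (N : ℝ) ≠ 0 := by exact_mod_cast hN
  unfold bern3 bInt
  push_cast
  field_simp
  ring

/-- `P = ∑_k b_k²`. -/
def bigP (N : ℕ) [NeZero N] : ℤ := ∑ k : ZMod N, bInt N (k.val : ℤ) ^ 2

/-- the integral coefficients of `P • θ`. -/
def zCoeff (N : ℕ) [NeZero N] (n : ℕ) : ℤ :=
  if n = 0 then bigP N
  else -(12 * (N : ℤ)) * ∑ d ∈ n.divisors, (d : ℤ) ^ 2 * bInt N (((d : ZMod N).val : ℕ) : ℤ)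

theorem coefI_sq : (-(4 * (Real.pi : ℂ) ^ 3 * Complex.I / 3)) ^ 2 = -(16 * (Real.pi : ℂ) ^ 6 / 9) := by
  have hI : Complex.I ^ 2 = -1 := Complex.I_sq
  linear_combination (16 * (Real.pi : ℂ) ^ 6 / 9) * hI

theorem lipC_eq : lipC = 4 * (Real.pi : ℂ) ^ 3 * Complex.I := by
  unfold lipC
  have hI : Complex.I ^ 2 = -1 := Complex.I_sq
  linear_combination (-4 * (Real.pi : ℂ) ^ 3 * Complex.I) * hI

theorem lipC_mul_coefI :
    lipC * (4 * (Real.pi : ℂ) ^ 3 * Complex.I) = -(16 * (Real.pi : ℂ) ^ 6) := by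
  rw [lipC_eq]
  have hI : Complex.I ^ 2 = -1 := Complex.I_sq
  linear_combination (16 * (Real.pi : ℂ) ^ 6) * hI

theorem c0_formula [NeZero N] (h2 : DkBern N) :
    ((c0 N : ℝ) : ℂ) = 4 * (Real.pi : ℂ) ^ 6 * (bigP N : ℂ) / (9 * (N : ℂ) ^ 7) := by
  have hN : (N : ℂ) ≠ 0 := by exact_mod_cast NeZero.ne N
  have hp := parseval_c0 N
  have hsum : ∑ k : ZMod N, Dk N k ^ 2 =
      -(4 * (Real.pi : ℂ) ^ 6 * (bigP N : ℂ) / (9 * (N : ℂ) ^ 6)) := by
    unfold bigP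
    push_cast
    rw [Finset.mul_sum, Finset.sum_div, ← Finset.sum_neg_distrib]
    refine Finset.sum_congr rfl fun k _ => ?_
    rw [h2 k, bern3_div (NeZero.ne N), mul_pow, coefI_sq]
    push_cast
    field_simp
    ring
  rw [hsum, neg_neg] at hp
  field_simp at hp ⊢
  linear_combination hp

theorem bigP_pos (hN : 3 ≤ N) [NeZero N] (h2 : DkBern N) : 0 < bigP N := by
  have hc := c0_pos (N := N) hN
  have h := c0_formula h2
  have hreal : (c0 N : ℝ) = 4 * Real.pi ^ 6 * (bigP N : ℝ) / (9 * (N : ℝ) ^ 7) := by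
    exact_mod_cast h
  have hNpos : (0 : ℝ) < N := by exact_mod_cast NeZero.pos N
  by_contra hneg
  have hle : (bigP N : ℝ) ≤ 0 := by exact_mod_cast not_lt.mp hneg
  have : (c0 N : ℝ) ≤ 0 := by
    rw [hreal]
    apply div_nonpos_of_nonpos_of_nonneg
    · exact mul_nonpos_of_nonneg_of_nonpos (by positivity) hle
    · positivity
  linarith

theorem coeff_formula (hN : 3 ≤ N) [NeZero N] (h2 : DkBern N) (n : ℕ) :
    (bigP N : ℂ) * (((c0 N : ℝ) : ℂ)⁻¹ * cB N n) = (zCoeff N n : ℂ) := by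
  have hNC : (N : ℂ) ≠ 0 := by exact_mod_cast NeZero.ne N
  have hc0 : ((c0 N : ℝ) : ℂ) ≠ 0 := by exact_mod_cast (c0_pos (N := N) hN).ne'
  have hP : (bigP N : ℂ) ≠ 0 := by exact_mod_cast (bigP_pos hN h2).ne'
  have hpi : (Real.pi : ℂ) ≠ 0 := by exact_mod_cast Real.pi_ne_zero
  unfold cB zCoeff
  by_cases hn : n = 0
  · rw [if_pos hn, if_pos hn, inv_mul_cancel₀ hc0, mul_one]
  · rw [if_neg hn, if_neg hn, c0_formula h2]
    have hsum : ∑ d ∈ n.divisors, (d : ℂ) ^ 2 * (-2 * Dk N ((d : ℕ) : ZMod N)) =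
        ((4 * (Real.pi : ℂ) ^ 3 * Complex.I) / (3 * (N : ℂ) ^ 3)) *
          ∑ d ∈ n.divisors, (d : ℂ) ^ 2 * ((bInt N (((d : ZMod N).val : ℕ) : ℤ) : ℤ) : ℂ) := by
      rw [Finset.mul_sum]
      refine Finset.sum_congr rfl fun d _ => ?_
      rw [h2, bern3_div (NeZero.ne N)]
      push_cast
      field_simp
    rw [hsum]
    set T : ℂ := ∑ d ∈ n.divisors, (d : ℂ) ^ 2 * ((bInt N (((d : ZMod N).val : ℕ) : ℤ) : ℤ) : ℂ)
      with hT
    have hprod : ((N : ℂ) ^ 3)⁻¹ * lipC *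
        (((4 * (Real.pi : ℂ) ^ 3 * Complex.I) / (3 * (N : ℂ) ^ 3)) * T) =
        -(16 * (Real.pi : ℂ) ^ 6) * T / (3 * (N : ℂ) ^ 6) := by
      have h := lipC_mul_coefI
      have hN3 : ((N : ℂ) ^ 3) ≠ 0 := pow_ne_zero 3 hNC
      have hN6 : ((N : ℂ) ^ 6) ≠ 0 := pow_ne_zero 6 hNC
      have e1 : ((N : ℂ) ^ 3)⁻¹ * lipC *
          (((4 * (Real.pi : ℂ) ^ 3 * Complex.I) / (3 * (N : ℂ) ^ 3)) * T) =
          (lipC * (4 * (Real.pi : ℂ) ^ 3 * Complex.I)) * T / (3 * (N : ℂ) ^ 6) := by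
        rw [eq_div_iff (mul_ne_zero (by norm_num) hN6)]
        have e2 : ((N : ℂ) ^ 3)⁻¹ * (N : ℂ) ^ 3 = 1 := inv_mul_cancel₀ hN3
        have e3 : ((4 * (Real.pi : ℂ) ^ 3 * Complex.I) / (3 * (N : ℂ) ^ 3)) * (3 * (N : ℂ) ^ 3) =
            4 * (Real.pi : ℂ) ^ 3 * Complex.I := div_mul_cancel₀ _ (mul_ne_zero (by norm_num) hN3)
        have e4 : (3 : ℂ) * (N : ℂ) ^ 6 = (N : ℂ) ^ 3 * (3 * (N : ℂ) ^ 3) := by ring
        rw [e4]
        calc ((N : ℂ) ^ 3)⁻¹ * lipC *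
              (((4 * (Real.pi : ℂ) ^ 3 * Complex.I) / (3 * (N : ℂ) ^ 3)) * T) *
              ((N : ℂ) ^ 3 * (3 * (N : ℂ) ^ 3))
            = (((N : ℂ) ^ 3)⁻¹ * (N : ℂ) ^ 3) * lipC *
              ((((4 * (Real.pi : ℂ) ^ 3 * Complex.I) / (3 * (N : ℂ) ^ 3)) * (3 * (N : ℂ) ^ 3)) * T) := by
                ring
          _ = lipC * (4 * (Real.pi : ℂ) ^ 3 * Complex.I) * T := by rw [e2, e3]; ring
      rw [e1, h]
    rw [hprod]
    have hz : ((-(12 * (N : ℤ)) * ∑ d ∈ n.divisors,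
        (d : ℤ) ^ 2 * bInt N (((d : ZMod N).val : ℕ) : ℤ) : ℤ) : ℂ) = -(12 * (N : ℂ)) * T := by
      rw [hT]
      push_cast
      rfl
    rw [hz]
    field_simp
    ring

theorem qT_eq (τ : ℍ) : qT τ = Function.Periodic.qParam 1 (τ : ℂ) := by
  unfold qT Function.Periodic.qParam
  simp

/-- the `q`-coefficients of `θ`. -/
theorem qExpansion_thetaMF_coeff [NeZero N] (h1 : HasSumBigTheta N) (n : ℕ) :
    (qExpansion 1 (thetaMF N)).coeff n = ((c0 N : ℝ) : ℂ)⁻¹ * cB N n := by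
  refine (ModularFormClass.qExpansion_coeff_unique one_pos (one_mem_strictPeriods_G1 N)
    (f := thetaMF N) (c := fun n => ((c0 N : ℝ) : ℂ)⁻¹ * cB N n) (fun τ => ?_) n).symm
  have h := (h1 τ).mul_left (((c0 N : ℝ) : ℂ)⁻¹)
  rw [thetaMF_apply]
  have hfun : (fun m : ℕ => (((c0 N : ℝ) : ℂ)⁻¹ * cB N m) • Function.Periodic.qParam 1 (τ : ℂ) ^ m) =
      fun i : ℕ => ((c0 N : ℝ) : ℂ)⁻¹ * (cB N i * qT τ ^ i) := by
    funext m
    rw [smul_eq_mul, qT_eq]
    ring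
  rw [hfun]
  exact h

/-- **final step**: `P • qExpansion θ ∈ ZSer`. -/
theorem hq_of (hN : 3 ≤ N) [NeZero N] (h1 : HasSumBigTheta N) (h2 : DkBern N) :
    ∃ M : ℕ, 0 < M ∧ (M : ℂ) • qExpansion 1 (thetaMF N) ∈ ZSer := by
  have hP := bigP_pos hN h2
  refine ⟨(bigP N).toNat, by omega, PowerSeries.mk (zCoeff N), ?_⟩
  ext n
  have hcast : (((bigP N).toNat : ℕ) : ℂ) = (bigP N : ℂ) := by
    have : (((bigP N).toNat : ℕ) : ℤ) = bigP N := Int.toNat_of_nonneg hP.le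
    exact_mod_cast congrArg (fun z : ℤ => (z : ℂ)) this
  rw [PowerSeries.coeff_map, PowerSeries.coeff_mk, PowerSeries.coeff_smul,
    qExpansion_thetaMF_coeff h1, hcast, smul_eq_mul, coeff_formula hN h2]
  simp

/-- **THETA1** from (H1) and (H2). -/
theorem thetaStatement_of (h1 : ∀ (N : ℕ) [NeZero N], 3 ≤ N → HasSumBigTheta N)
    (h2 : ∀ (N : ℕ) [NeZero N], 3 ≤ N → DkBern N) : ThetaStatement :=
  thetaStatement_of_qExp fun N _ hN => hq_of hN (h1 N hN) (h2 N hN)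

end Fermat.Agent.S48G1.ThetaQ
end
end MergeWrap_S48_G1_ThetaFinal

section MergeWrap_S48_G1_ThetaQExpRearr -- from S48/G1/ThetaQExpRearr.lean

/-!
# S48 THETA1 (B), helper1: the rearrangement `∑_{m, d} f(d) r^(m d) = ∑_e (∑_{d ∣ e} f d) r^e`
-/

set_option autoImplicit false

noncomputable section

namespace Fermat.Agent.S48G1.ThetaQ

open Fermat.Agent.S48G1.Theta

open Complex

/-- the divisor sum of `f`. -/
def divSum (f : ℕ → ℂ) (e : ℕ) : ℂ := ∑ d ∈ e.divisors, f d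

theorem qx_summable_prod (f : ℕ → ℂ) (hf : ∀ d : ℕ, ‖f d‖ ≤ (d : ℝ) ^ 2) {r : ℂ}
    (hr : ‖r‖ < 1) :
    Summable fun c : ℕ+ × ℕ+ => f (c.2 : ℕ) * r ^ ((c.1 : ℕ) * (c.2 : ℕ)) := by
  have h := summable_prod_mul_pow (𝕜 := ℝ) 2 (r := ‖r‖) (by simpa using hr)
  refine Summable.of_norm_bounded h fun c => ?_
  rw [norm_mul, norm_pow]
  exact mul_le_mul_of_nonneg_right (by simpa using hf (c.2 : ℕ)) (by positivity)

theorem qx_inner (f : ℕ → ℂ) (r : ℂ) (n : ℕ+) :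
    ∑' x : {x // x ∈ (n : ℕ).divisorsAntidiagonal},
      f ((sigmaAntidiagonalEquivProd ⟨n, x⟩).2 : ℕ) *
        r ^ (((sigmaAntidiagonalEquivProd ⟨n, x⟩).1 : ℕ) *
          ((sigmaAntidiagonalEquivProd ⟨n, x⟩).2 : ℕ)) = divSum f n * r ^ (n : ℕ) := by
  rw [tsum_fintype, Finset.univ_eq_attach]
  have h1 : ∀ x : {x // x ∈ (n : ℕ).divisorsAntidiagonal},
      f ((sigmaAntidiagonalEquivProd ⟨n, x⟩).2 : ℕ) *
        r ^ (((sigmaAntidiagonalEquivProd ⟨n, x⟩).1 : ℕ) *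
          ((sigmaAntidiagonalEquivProd ⟨n, x⟩).2 : ℕ)) = f x.1.2 * r ^ (n : ℕ) := by
    intro x
    have h2 : ((sigmaAntidiagonalEquivProd ⟨n, x⟩).1 : ℕ) *
        ((sigmaAntidiagonalEquivProd ⟨n, x⟩).2 : ℕ) = n := divisorsAntidiagonalFactors_eq x
    rw [h2]
    rfl
  rw [Finset.sum_congr rfl fun x _ => h1 x,
    (n : ℕ).divisorsAntidiagonal.sum_attach fun x : ℕ × ℕ => f x.2 * r ^ (n : ℕ),
    Nat.sum_divisorsAntidiagonal' (f := fun _ y => f y * r ^ (n : ℕ)), divSum, Finset.sum_mul]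

theorem qx_summable_sigma (f : ℕ → ℂ) (hf : ∀ d : ℕ, ‖f d‖ ≤ (d : ℝ) ^ 2) {r : ℂ}
    (hr : ‖r‖ < 1) :
    Summable fun p : (Σ n : ℕ+, {x // x ∈ (n : ℕ).divisorsAntidiagonal}) =>
      f ((sigmaAntidiagonalEquivProd p).2 : ℕ) *
        r ^ (((sigmaAntidiagonalEquivProd p).1 : ℕ) * ((sigmaAntidiagonalEquivProd p).2 : ℕ)) :=
  sigmaAntidiagonalEquivProd.summable_iff.mpr (qx_summable_prod f hf hr)

/-- the rearrangement. -/
theorem qx_rearr (f : ℕ → ℂ) (hf : ∀ d : ℕ, ‖f d‖ ≤ (d : ℝ) ^ 2) {r : ℂ} (hr : ‖r‖ < 1) :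
    ∑' m : ℕ+, ∑' d : ℕ+, f (d : ℕ) * r ^ ((m : ℕ) * (d : ℕ)) =
      ∑' e : ℕ+, divSum f e * r ^ (e : ℕ) := by
  rw [← (qx_summable_prod f hf hr).tsum_prod,
    ← sigmaAntidiagonalEquivProd.tsum_eq, (qx_summable_sigma f hf hr).tsum_sigma]
  exact tsum_congr fun n => qx_inner f r n

theorem qx_summable_divSum (f : ℕ → ℂ) (hf : ∀ d : ℕ, ‖f d‖ ≤ (d : ℝ) ^ 2) {r : ℂ}
    (hr : ‖r‖ < 1) : Summable fun e : ℕ+ => divSum f e * r ^ (e : ℕ) := by
  have h := (qx_summable_sigma f hf hr).sigma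
  refine h.congr fun n => ?_
  exact qx_inner f r n

end Fermat.Agent.S48G1.ThetaQ
end
end MergeWrap_S48_G1_ThetaQExpRearr

section MergeWrap_S48_G1_ThetaQExpCls -- from S48/G1/ThetaQExpCls.lean

/-!
# S48 THETA1 (B), helper1: the lattice sum over a residue class `{v : v₀ ≡ 0, v₁ ≡ a mod N}`

`clsSum N a τ = ∑_{(m, j) ∈ ℤ²} (N m τ + a + N j)⁻³`
  `= Sr N a + C / N³ ∑_{e ≥ 1} (∑_{d ∣ e} d² (e(a/N)^d - e(-a/N)^d)) q^e`.
-/

set_option autoImplicit false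

noncomputable section

namespace Fermat.Agent.S48G1.ThetaQ

open Fermat.Agent.S48G1.Theta

open EisensteinSeries Complex

open UpperHalfPlane hiding I

variable (N : ℕ) [NeZero N]

/-- the vectors of the residue class `(0, a)`. -/
def clsVec (a : ZMod N) (p : ℤ × ℤ) : Fin 2 → ℤ := ![(N : ℤ) * p.1, (a.val : ℤ) + (N : ℤ) * p.2]

theorem clsVec_injective (a : ZMod N) : Function.Injective (clsVec N a) := by
  intro p p' h
  have hN : (N : ℤ) ≠ 0 := by exact_mod_cast NeZero.ne N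
  have h0 := congrFun h 0
  have h1 := congrFun h 1
  simp only [clsVec, Matrix.cons_val_zero, Matrix.cons_val_one] at h0 h1
  have e0 : p.1 = p'.1 := mul_left_cancel₀ hN h0
  have e1 : p.2 = p'.2 := mul_left_cancel₀ hN (add_left_cancel h1)
  exact Prod.ext e0 e1

theorem mem_range_clsVec (a : ZMod N) (v : Fin 2 → ℤ) :
    v ∈ Set.range (clsVec N a) ↔ ((v 0 : ℤ) : ZMod N) = 0 ∧ ((v 1 : ℤ) : ZMod N) = a := by
  constructor
  · rintro ⟨p, rfl⟩
    simp [clsVec]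
  · rintro ⟨h0, h1⟩
    obtain ⟨m, hm⟩ := (ZMod.intCast_zmod_eq_zero_iff_dvd _ N).mp h0
    have h2 : (((v 1 - (a.val : ℤ) : ℤ)) : ZMod N) = 0 := by
      push_cast
      rw [h1, ZMod.natCast_zmod_val, sub_self]
    obtain ⟨j, hj⟩ := (ZMod.intCast_zmod_eq_zero_iff_dvd _ N).mp h2
    refine ⟨(m, j), ?_⟩
    funext i
    fin_cases i
    · simp [clsVec, hm]
    · simp only [clsVec, Fin.mk_one, Matrix.cons_val_one, Matrix.cons_val_zero]
      rw [← hj]; ring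

/-- the lattice sum over the residue class `(0, a)`. -/
def clsSum (a : ZMod N) (τ : ℍ) : ℂ := ∑' p : ℤ × ℤ, eisSummand 3 (clsVec N a p) τ

theorem summable_clsSum (a : ZMod N) (τ : ℍ) :
    Summable fun p : ℤ × ℤ => eisSummand 3 (clsVec N a p) τ :=
  ((summable_norm_eisSummand (k := 3) le_rfl τ).of_norm).comp_injective (clsVec_injective N a)

/-- the shifted summand. -/
def shSummand (τ : ℍ) (x : ℝ) (m j : ℤ) : ℂ := ((m : ℂ) * (τ : ℂ) + (x : ℂ) + (j : ℂ)) ^ (-3 : ℤ)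

theorem eisSummand_clsVec (a : ZMod N) (τ : ℍ) (p : ℤ × ℤ) :
    eisSummand 3 (clsVec N a p) τ =
      ((N : ℂ) ^ 3)⁻¹ * shSummand τ ((a.val : ℝ) / (N : ℝ)) p.1 p.2 := by
  have hN : (N : ℂ) ≠ 0 := by exact_mod_cast NeZero.ne N
  unfold eisSummand shSummand clsVec
  simp only [Matrix.cons_val_zero, Matrix.cons_val_one]
  have h : (((N : ℤ) * p.1 : ℤ) : ℂ) * (τ : ℂ) + ((((a.val : ℤ) + (N : ℤ) * p.2 : ℤ)) : ℂ) =
      (N : ℂ) * ((p.1 : ℂ) * (τ : ℂ) + (((a.val : ℝ) / (N : ℝ) : ℝ) : ℂ) + (p.2 : ℂ)) := by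
    push_cast
    field_simp
    ring
  rw [h, mul_zpow, show (-3 : ℤ) = -((3 : ℕ) : ℤ) by norm_num, zpow_neg, zpow_neg,
    zpow_natCast, zpow_natCast]

theorem summable_shSummand (a : ZMod N) (τ : ℍ) :
    Summable fun p : ℤ × ℤ => shSummand τ ((a.val : ℝ) / (N : ℝ)) p.1 p.2 := by
  have hN : ((N : ℂ) ^ 3) ≠ 0 := pow_ne_zero 3 (by exact_mod_cast NeZero.ne N)
  have h := (summable_clsSum N a τ).mul_left ((N : ℂ) ^ 3)
  refine h.congr fun p => ?_
  rw [eisSummand_clsVec, ← mul_assoc, mul_inv_cancel₀ hN, one_mul]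

theorem clsSum_eq (a : ZMod N) (τ : ℍ) :
    clsSum N a τ = ((N : ℂ) ^ 3)⁻¹ *
      ∑' m : ℤ, ∑' j : ℤ, shSummand τ ((a.val : ℝ) / (N : ℝ)) m j := by
  unfold clsSum
  rw [← (summable_shSummand N a τ).tsum_prod, ← tsum_mul_left]
  exact tsum_congr fun p => eisSummand_clsVec N a τ p

/-- the function `d ↦ d² e(x)^d`. -/
def fE (x : ℝ) (d : ℕ) : ℂ := (d : ℂ) ^ 2 * eR x ^ d

theorem norm_eR (x : ℝ) : ‖eR x‖ = 1 := by
  unfold eR
  rw [show 2 * (Real.pi : ℂ) * I * (x : ℂ) = ((2 * Real.pi * x : ℝ) : ℂ) * I by push_cast; ring]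
  exact Complex.norm_exp_ofReal_mul_I _

theorem norm_fE_le (x : ℝ) (d : ℕ) : ‖fE x d‖ ≤ (d : ℝ) ^ 2 := by
  unfold fE
  rw [norm_mul, norm_pow, norm_pow, norm_eR, one_pow, mul_one, Complex.norm_natCast]

theorem norm_qT_lt_one (τ : ℍ) : ‖qT τ‖ < 1 := by
  unfold qT
  exact UpperHalfPlane.norm_exp_two_pi_I_lt_one τ

end Fermat.Agent.S48G1.ThetaQ
end
end MergeWrap_S48_G1_ThetaQExpCls

section MergeWrap_S48_G1_ThetaQExpCls2 -- from S48/G1/ThetaQExpCls2.lean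

/-!
# S48 THETA1 (B), helper1: the `q`-expansion of the lattice sum over a residue class
-/

set_option autoImplicit false
set_option linter.unusedSectionVars false

noncomputable section

namespace Fermat.Agent.S48G1.ThetaQ

open Fermat.Agent.S48G1.Theta

open EisensteinSeries Complex

open UpperHalfPlane hiding I

variable (N : ℕ) [NeZero N]

/-- `Sr` as a sum over the progression `a + N j`. -/
theorem Sr_eq_tsum_progression (a : ZMod N) :
    Sr N a = ∑' j : ℤ, ((((a.val : ℤ) + (N : ℤ) * j : ℤ) : ℝ) ^ 3)⁻¹ := by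
  have hN : (N : ℤ) ≠ 0 := by exact_mod_cast NeZero.ne N
  have hinj : Function.Injective fun j : ℤ => (a.val : ℤ) + (N : ℤ) * j := fun j j' h =>
    mul_left_cancel₀ hN (add_left_cancel h)
  unfold Sr
  rw [← hinj.tsum_eq]
  · refine tsum_congr fun j => ?_
    rw [if_pos]
    push_cast
    rw [ZMod.natCast_zmod_val, ZMod.natCast_self, zero_mul, add_zero]
  · intro n hn
    rw [Function.mem_support] at hn
    have h1 : ((n : ℤ) : ZMod N) = a := by
      by_contra h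
      exact hn (if_neg h)
    have h2 : (((n - (a.val : ℤ) : ℤ)) : ZMod N) = 0 := by
      push_cast
      rw [h1, ZMod.natCast_zmod_val, sub_self]
    obtain ⟨j, hj⟩ := (ZMod.intCast_zmod_eq_zero_iff_dvd _ N).mp h2
    exact ⟨j, by show (a.val : ℤ) + (N : ℤ) * j = n; rw [← hj]; ring⟩

theorem tsum_shSummand_zero (a : ZMod N) (τ : ℍ) :
    ∑' j : ℤ, shSummand τ ((a.val : ℝ) / (N : ℝ)) 0 j = (N : ℂ) ^ 3 * ((Sr N a : ℝ) : ℂ) := by
  have hN : (N : ℂ) ≠ 0 := by exact_mod_cast NeZero.ne N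
  rw [Sr_eq_tsum_progression, Complex.ofReal_tsum, ← tsum_mul_left]
  refine tsum_congr fun j => ?_
  unfold shSummand
  have h : ((0 : ℤ) : ℂ) * (τ : ℂ) + (((a.val : ℝ) / (N : ℝ) : ℝ) : ℂ) + (j : ℂ) =
      (N : ℂ)⁻¹ * (((a.val : ℤ) + (N : ℤ) * j : ℤ) : ℂ) := by
    push_cast
    field_simp
    ring
  rw [h, mul_zpow, show (-3 : ℤ) = -((3 : ℕ) : ℤ) by norm_num, zpow_neg, zpow_neg,
    zpow_natCast, zpow_natCast, inv_pow, inv_inv]
  push_cast
  ring

theorem tsum_shSummand_pos (a : ZMod N) (τ : ℍ) (m : ℕ+) :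
    ∑' j : ℤ, shSummand τ ((a.val : ℝ) / (N : ℝ)) ((m : ℕ) : ℤ) j =
      lipC * ∑' d : ℕ+, fE ((a.val : ℝ) / (N : ℝ)) (d : ℕ) * qT τ ^ ((m : ℕ) * (d : ℕ)) := by
  have h := qx_lip_pos τ ((a.val : ℝ) / (N : ℝ)) m
  unfold shSummand fE
  simp only [Int.cast_natCast]
  rw [h]
  congr 1
  exact tsum_congr fun d => by ring

theorem tsum_shSummand_neg (a : ZMod N) (τ : ℍ) (m : ℕ+) :
    ∑' j : ℤ, shSummand τ ((a.val : ℝ) / (N : ℝ)) (-((m : ℕ) : ℤ)) j =
      -(lipC * ∑' d : ℕ+, fE (-((a.val : ℝ) / (N : ℝ))) (d : ℕ) *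
        qT τ ^ ((m : ℕ) * (d : ℕ))) := by
  have h := qx_lip_neg τ ((a.val : ℝ) / (N : ℝ)) m
  unfold shSummand fE
  simp only [Int.cast_neg, Int.cast_natCast]
  rw [h]
  congr 2
  exact tsum_congr fun d => by ring

/-- the `q`-expansion of the lattice sum over the residue class `(0, a)`. -/
theorem clsSum_formula (a : ZMod N) (τ : ℍ) :
    clsSum N a τ = ((Sr N a : ℝ) : ℂ) + ((N : ℂ) ^ 3)⁻¹ * lipC *
      (∑' e : ℕ+, divSum (fE ((a.val : ℝ) / (N : ℝ))) e * qT τ ^ (e : ℕ) -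
        ∑' e : ℕ+, divSum (fE (-((a.val : ℝ) / (N : ℝ)))) e * qT τ ^ (e : ℕ)) := by
  have hN : ((N : ℂ) ^ 3) ≠ 0 := pow_ne_zero 3 (by exact_mod_cast NeZero.ne N)
  have hS := summable_shSummand N a τ
  have hsplit := tsum_int_eq_zero_add_tsum_pnat
    (f := fun m : ℤ => ∑' j : ℤ, shSummand τ ((a.val : ℝ) / (N : ℝ)) m j) hS.prod
  rw [clsSum_eq, hsplit, tsum_shSummand_zero]
  simp only [tsum_shSummand_pos, tsum_shSummand_neg]
  rw [tsum_mul_left, tsum_neg, tsum_mul_left,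
    qx_rearr _ (norm_fE_le _) (norm_qT_lt_one τ), qx_rearr _ (norm_fE_le _) (norm_qT_lt_one τ)]
  generalize (∑' e : ℕ+, divSum (fE ((a.val : ℝ) / (N : ℝ))) e * qT τ ^ (e : ℕ)) = A
  generalize (∑' e : ℕ+, divSum (fE (-((a.val : ℝ) / (N : ℝ)))) e * qT τ ^ (e : ℕ)) = B
  generalize ((Sr N a : ℝ) : ℂ) = s
  have hN' : (N : ℂ) ≠ 0 := by exact_mod_cast NeZero.ne N
  field_simp
  ring

end Fermat.Agent.S48G1.ThetaQ
end
end MergeWrap_S48_G1_ThetaQExpCls2

section MergeWrap_S48_G1_ThetaQExpSum -- from S48/G1/ThetaQExpSum.lean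

/-!
# S48 THETA1 (B), helper1: `Θ = ∑_a Sr(a) · (lattice sum over the class (0, a))`
-/

set_option autoImplicit false
set_option linter.unusedSectionVars false

noncomputable section

namespace Fermat.Agent.S48G1.ThetaQ

open Fermat.Agent.S48G1.Theta

open EisensteinSeries Complex

open UpperHalfPlane hiding I

variable (N : ℕ) [NeZero N]

theorem wTheta_mul_eq (τ : ℍ) (v : Fin 2 → ℤ) :
    wTheta N ((↑) ∘ v) * eisSummand 3 v τ =
      ∑ a : ZMod N, ((Sr N a : ℝ) : ℂ) *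
        (Set.range (clsVec N a)).indicator (fun v => eisSummand 3 v τ) v := by
  classical
  unfold wTheta
  by_cases h0 : ((v 0 : ℤ) : ZMod N) = 0
  · rw [if_pos (by simpa using h0)]
    rw [Finset.sum_eq_single ((v 1 : ℤ) : ZMod N)]
    · rw [Set.indicator_of_mem ((mem_range_clsVec N _ v).mpr ⟨h0, rfl⟩)]
      rfl
    · intro b _ hb
      rw [Set.indicator_of_notMem, mul_zero]
      intro hmem
      exact hb ((mem_range_clsVec N b v).mp hmem).2.symm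
    · intro h
      exact absurd (Finset.mem_univ _) h
  · rw [if_neg (by simpa using h0), zero_mul]
    symm
    refine Finset.sum_eq_zero fun b _ => ?_
    rw [Set.indicator_of_notMem, mul_zero]
    intro hmem
    exact h0 ((mem_range_clsVec N b v).mp hmem).1

theorem tsum_indicator_cls (a : ZMod N) (τ : ℍ) :
    ∑' v : Fin 2 → ℤ, (Set.range (clsVec N a)).indicator (fun v => eisSummand 3 v τ) v =
      clsSum N a τ := by
  unfold clsSum
  rw [← (clsVec_injective N a).tsum_eq (f := (Set.range (clsVec N a)).indicator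
    (fun v => eisSummand 3 v τ))]
  · refine tsum_congr fun p => ?_
    rw [Set.indicator_of_mem (Set.mem_range_self p)]
  · exact Set.support_indicator_subset

theorem summable_indicator_cls (a : ZMod N) (τ : ℍ) :
    Summable fun v : Fin 2 → ℤ =>
      (Set.range (clsVec N a)).indicator (fun v => eisSummand 3 v τ) v :=
  ((summable_norm_eisSummand (k := 3) le_rfl τ).of_norm).indicator _

/-- `Θ` as a combination of the lattice sums over the classes `(0, a)`. -/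
theorem bigTheta_eq_sum (τ : ℍ) :
    bigTheta N τ = ∑ a : ZMod N, ((Sr N a : ℝ) : ℂ) * clsSum N a τ := by
  unfold bigTheta wlat
  rw [tsum_congr (wTheta_mul_eq N τ)]
  rw [Summable.tsum_finsetSum fun a _ => (summable_indicator_cls N a τ).mul_left _]
  refine Finset.sum_congr rfl fun a _ => ?_
  rw [tsum_mul_left, tsum_indicator_cls]

end Fermat.Agent.S48G1.ThetaQ
end
end MergeWrap_S48_G1_ThetaQExpSum

section MergeWrap_S48_G1_ThetaQExpMain -- from S48/G1/ThetaQExpMain.lean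

/-!
# S48 THETA1 (B), helper1: the `q`-expansion of `Θ` (H1)
-/

set_option autoImplicit false
set_option linter.unusedSectionVars false

noncomputable section

namespace Fermat.Agent.S48G1.ThetaQ

open Fermat.Agent.S48G1.Theta Complex

open UpperHalfPlane hiding I

variable (N : ℕ) [NeZero N]

theorem eR_neg_pow (a : ZMod N) (d : ℕ) :
    eR (-((a.val : ℝ) / (N : ℝ))) ^ d = ZMod.stdAddChar (N := N) (-(a * (d : ZMod N))) := by
  have h : (-(a * (d : ZMod N))) = (((-((a.val : ℤ) * (d : ℤ)) : ℤ)) : ZMod N) := by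
    push_cast
    rw [ZMod.natCast_zmod_val]
  rw [h, ZMod.stdAddChar_coe]
  unfold eR
  rw [← Complex.exp_nat_mul]
  congr 1
  push_cast
  ring

theorem eR_pow (a : ZMod N) (d : ℕ) :
    eR ((a.val : ℝ) / (N : ℝ)) ^ d = ZMod.stdAddChar (N := N) (-(a * (-(d : ZMod N)))) := by
  have h : (-(a * (-(d : ZMod N)))) = ((((a.val : ℤ) * (d : ℤ) : ℤ)) : ZMod N) := by
    push_cast
    rw [ZMod.natCast_zmod_val]
    ring
  rw [h, ZMod.stdAddChar_coe]
  unfold eR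
  rw [← Complex.exp_nat_mul]
  congr 1
  push_cast
  ring

theorem sum_Sr_eR (d : ℕ) :
    ∑ a : ZMod N, ((Sr N a : ℝ) : ℂ) *
      (eR ((a.val : ℝ) / (N : ℝ)) ^ d - eR (-((a.val : ℝ) / (N : ℝ))) ^ d) =
      -2 * Dk N (d : ZMod N) := by
  have h1 : ∑ a : ZMod N, ((Sr N a : ℝ) : ℂ) * eR ((a.val : ℝ) / (N : ℝ)) ^ d =
      Dk N (-(d : ZMod N)) := by
    unfold Dk
    refine Finset.sum_congr rfl fun a _ => ?_
    rw [eR_pow, mul_comm]
  have h2 : ∑ a : ZMod N, ((Sr N a : ℝ) : ℂ) * eR (-((a.val : ℝ) / (N : ℝ))) ^ d =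
      Dk N (d : ZMod N) := by
    unfold Dk
    refine Finset.sum_congr rfl fun a _ => ?_
    rw [eR_neg_pow, mul_comm]
  simp only [mul_sub, Finset.sum_sub_distrib]
  rw [h1, h2, Dk_neg]
  ring

theorem sum_Sr_divSum (e : ℕ) :
    ∑ a : ZMod N, ((Sr N a : ℝ) : ℂ) *
      (divSum (fE ((a.val : ℝ) / (N : ℝ))) e - divSum (fE (-((a.val : ℝ) / (N : ℝ)))) e) =
      ∑ d ∈ e.divisors, (d : ℂ) ^ 2 * (-2 * Dk N ((d : ℕ) : ZMod N)) := by
  unfold divSum fE
  simp only [← Finset.sum_sub_distrib, Finset.mul_sum]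
  rw [Finset.sum_comm]
  refine Finset.sum_congr rfl fun d _ => ?_
  rw [← sum_Sr_eR, Finset.mul_sum]
  refine Finset.sum_congr rfl fun a _ => ?_
  ring

theorem c0_coe : ((c0 N : ℝ) : ℂ) = ∑ a : ZMod N, ((Sr N a : ℝ) : ℂ) * ((Sr N a : ℝ) : ℂ) := by
  unfold c0
  push_cast
  exact Finset.sum_congr rfl fun a _ => sq _

/-- the `q`-expansion of `Θ` without its constant term. -/
theorem hasSum_bigTheta_pnat (τ : ℍ) :
    HasSum (fun e : ℕ+ => cB N (e : ℕ) * qT τ ^ (e : ℕ)) (bigTheta N τ - ((c0 N : ℝ) : ℂ)) := by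
  have hq := norm_qT_lt_one τ
  -- the two series of each class
  have hA : ∀ a : ZMod N, HasSum
      (fun e : ℕ+ => divSum (fE ((a.val : ℝ) / (N : ℝ))) e * qT τ ^ (e : ℕ))
      (∑' e : ℕ+, divSum (fE ((a.val : ℝ) / (N : ℝ))) e * qT τ ^ (e : ℕ)) := fun a =>
    (qx_summable_divSum _ (norm_fE_le _) hq).hasSum
  have hB : ∀ a : ZMod N, HasSum
      (fun e : ℕ+ => divSum (fE (-((a.val : ℝ) / (N : ℝ)))) e * qT τ ^ (e : ℕ))
      (∑' e : ℕ+, divSum (fE (-((a.val : ℝ) / (N : ℝ)))) e * qT τ ^ (e : ℕ)) := fun a =>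
    (qx_summable_divSum _ (norm_fE_le _) hq).hasSum
  have hsum := hasSum_sum (s := (Finset.univ : Finset (ZMod N)))
    (f := fun (a : ZMod N) (e : ℕ+) => ((Sr N a : ℝ) : ℂ) * (((N : ℂ) ^ 3)⁻¹ * lipC *
      (divSum (fE ((a.val : ℝ) / (N : ℝ))) e * qT τ ^ (e : ℕ) -
        divSum (fE (-((a.val : ℝ) / (N : ℝ)))) e * qT τ ^ (e : ℕ))))
    (fun a _ => (((hA a).sub (hB a)).mul_left (((N : ℂ) ^ 3)⁻¹ * lipC)).mul_left _)
  have hval : bigTheta N τ - ((c0 N : ℝ) : ℂ) =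
      ∑ a : ZMod N, ((Sr N a : ℝ) : ℂ) * (((N : ℂ) ^ 3)⁻¹ * lipC *
        (∑' e : ℕ+, divSum (fE ((a.val : ℝ) / (N : ℝ))) e * qT τ ^ (e : ℕ) -
          ∑' e : ℕ+, divSum (fE (-((a.val : ℝ) / (N : ℝ)))) e * qT τ ^ (e : ℕ))) := by
    rw [bigTheta_eq_sum, c0_coe, ← Finset.sum_sub_distrib]
    refine Finset.sum_congr rfl fun a _ => ?_
    rw [clsSum_formula]
    ring
  rw [hval]
  refine hsum.congr_fun ?_
  intro e
  have hne : (e : ℕ) ≠ 0 := e.pos.ne'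
  unfold cB
  rw [if_neg hne, ← sum_Sr_divSum, Finset.mul_sum, Finset.sum_mul]
  refine Finset.sum_congr rfl fun a _ => ?_
  ring

/-- **(H1)**. -/
theorem hasSumBigTheta : HasSumBigTheta N := by
  intro τ
  have h := (hasSum_pnat_iff (f := fun n : ℕ => cB N n * qT τ ^ n)).mp (hasSum_bigTheta_pnat N τ)
  have h0 : cB N 0 * qT τ ^ 0 = ((c0 N : ℝ) : ℂ) := by
    unfold cB
    rw [if_pos rfl, pow_zero, mul_one]
  rwa [h0, sub_add_cancel] at h

end Fermat.Agent.S48G1.ThetaQ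
end
end MergeWrap_S48_G1_ThetaQExpMain

section MergeWrap_S48_G1_ThetaQExpBern -- from S48/G1/ThetaQExpBern.lean

/-!
# S48 THETA1 (B), helper1: `Dk N k = -(4 π³ i / 3) B₃(k / N)` (H2)
-/

set_option autoImplicit false
set_option linter.unusedSectionVars false

noncomputable section

namespace Fermat.Agent.S48G1.ThetaQ

open Fermat.Agent.S48G1.Theta Complex

variable (N : ℕ) [NeZero N]

theorem bern3_eval (x : ℝ) :
    (Polynomial.map (algebraMap ℚ ℝ) (Polynomial.bernoulli 3)).eval x = bern3 x := by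
  have h0 : _root_.bernoulli 0 = 1 := bernoulli_zero
  have h1 : _root_.bernoulli 1 = -1 / 2 := bernoulli_one
  have h2 : _root_.bernoulli 2 = 6⁻¹ := bernoulli_two
  have h3 : _root_.bernoulli 3 = 0 := by
    rw [bernoulli_eq_bernoulli'_of_ne_one (by norm_num), bernoulli'_three]
  unfold bern3
  simp only [Polynomial.bernoulli, Finset.sum_range_succ, Finset.sum_range_zero, h0, h1, h2, h3]
  simp [Nat.choose]
  ring

/-- the sine series of `B₃`. -/
theorem tsum_sin_eq (x : ℝ) (hx : x ∈ Set.Icc (0 : ℝ) 1) :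
    ∑' n : ℕ, 1 / (n : ℝ) ^ 3 * Real.sin (2 * Real.pi * n * x) =
      (2 * Real.pi) ^ 3 / 12 * bern3 x := by
  have h := (hasSum_one_div_nat_pow_mul_sin (k := 1) one_ne_zero hx).tsum_eq
  rw [show 2 * 1 + 1 = 3 by norm_num, bern3_eval] at h
  rw [h]
  have hfac : ((Nat.factorial 3 : ℕ) : ℝ) = 6 := by norm_num [Nat.factorial]
  rw [hfac]
  ring

theorem norm_chr (k : ZMod N) (n : ℤ) : ‖chr N k n‖ = 1 := by
  rw [chr_eq]
  have h : 2 * (Real.pi : ℂ) * I * ((-(n * (k.val : ℤ)) : ℤ) : ℂ) / (N : ℂ) =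
      ((2 * Real.pi * ((-(n * (k.val : ℤ)) : ℤ) : ℝ) / (N : ℝ) : ℝ) : ℂ) * I := by
    push_cast
    ring
  rw [h]
  exact Complex.norm_exp_ofReal_mul_I _

/-- the summand of the Fourier transform of `Sr`. -/
def gk (k : ZMod N) (n : ℤ) : ℂ := chr N k n * ((n : ℂ) ^ 3)⁻¹

theorem summable_gk (k : ZMod N) : Summable (gk N k) := by
  refine Summable.of_norm_bounded (summable_inv_cube_int.norm) fun n => ?_
  unfold gk
  rw [norm_mul, norm_chr, one_mul, norm_inv, norm_inv, norm_pow, norm_pow]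
  simp

theorem gk_add (k : ZMod N) (n : ℕ) :
    gk N k (n : ℤ) + gk N k (-(n : ℤ)) =
      -(2 * I) * ((1 / (n : ℝ) ^ 3 *
        Real.sin (2 * Real.pi * n * ((k.val : ℝ) / (N : ℝ))) : ℝ) : ℂ) := by
  unfold gk
  rw [chr_eq, chr_eq]
  set θ : ℂ := ((2 * Real.pi * n * ((k.val : ℝ) / (N : ℝ)) : ℝ) : ℂ) with hθ
  have e1 : 2 * (Real.pi : ℂ) * I * ((-(((n : ℕ) : ℤ) * (k.val : ℤ)) : ℤ) : ℂ) / (N : ℂ) =
      -θ * I := by
    rw [hθ]; push_cast; ring
  have e2 : 2 * (Real.pi : ℂ) * I * ((-(-((n : ℕ) : ℤ) * (k.val : ℤ)) : ℤ) : ℂ) / (N : ℂ) =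
      θ * I := by
    rw [hθ]; push_cast; ring
  rw [e1, e2]
  have hsin : Complex.sin θ = (cexp (-θ * I) - cexp (θ * I)) * I / 2 := rfl
  have hs : ((Real.sin (2 * Real.pi * n * ((k.val : ℝ) / (N : ℝ))) : ℝ) : ℂ) = Complex.sin θ := by
    rw [hθ, Complex.ofReal_sin]
  have hI : I * I = -1 := Complex.I_mul_I
  rw [Complex.ofReal_mul, hs, hsin]
  push_cast
  have hn3 : ((-(n : ℂ)) ^ 3)⁻¹ = -((n : ℂ) ^ 3)⁻¹ := by
    rw [Odd.neg_pow (by decide), inv_neg]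
  rw [hn3]
  have : -(2 * I) * (1 / (n : ℂ) ^ 3 * ((cexp (-θ * I) - cexp (θ * I)) * I / 2)) =
      (cexp (-θ * I) - cexp (θ * I)) * ((n : ℂ) ^ 3)⁻¹ * (-(I * I)) := by
    ring
  rw [this, hI]
  ring

/-- **(H2)**. -/
theorem dkBern : DkBern N := by
  intro k
  have hD : Dk N k = ∑' n : ℤ, gk N k n := dft_Sr_eq_tsum N k
  have hsplit := tsum_int_eq_zero_add_tsum_pnat (summable_gk N k)
  have h0 : gk N k 0 = 0 := by
    unfold gk
    simp
  have hs1 : Summable fun n : ℕ+ => gk N k ((n : ℕ) : ℤ) :=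
    (summable_gk N k).comp_injective fun a b h => by
      have : ((a : ℕ) : ℤ) = ((b : ℕ) : ℤ) := h
      exact PNat.coe_injective (by exact_mod_cast this)
  have hs2 : Summable fun n : ℕ+ => gk N k (-((n : ℕ) : ℤ)) :=
    (summable_gk N k).comp_injective fun a b h => by
      have : -((a : ℕ) : ℤ) = -((b : ℕ) : ℤ) := h
      exact PNat.coe_injective (by exact_mod_cast neg_injective this)
  have hx : ((k.val : ℝ) / (N : ℝ)) ∈ Set.Icc (0 : ℝ) 1 := by
    have hN : (0 : ℝ) < N := by exact_mod_cast Nat.pos_of_ne_zero (NeZero.ne N)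
    constructor
    · positivity
    · rw [div_le_one hN]
      exact_mod_cast (ZMod.val_lt k).le
  rw [hD, hsplit, h0, zero_add, ← hs1.tsum_add hs2]
  have hterm : ∀ n : ℕ+, gk N k ((n : ℕ) : ℤ) + gk N k (-((n : ℕ) : ℤ)) =
      -(2 * I) * ((1 / ((n : ℕ) : ℝ) ^ 3 *
        Real.sin (2 * Real.pi * (n : ℕ) * ((k.val : ℝ) / (N : ℝ))) : ℝ) : ℂ) :=
    fun n => gk_add N k n
  rw [tsum_congr hterm, tsum_mul_left, ← Complex.ofReal_tsum,
    tsum_pnat_eq_tsum_of_eq_zero (f := fun n : ℕ => 1 / (n : ℝ) ^ 3 *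
        Real.sin (2 * Real.pi * n * ((k.val : ℝ) / (N : ℝ)))) (by simp),
    tsum_sin_eq _ hx]
  push_cast
  ring

end Fermat.Agent.S48G1.ThetaQ
end
end MergeWrap_S48_G1_ThetaQExpBern

section MergeWrap_S48_G1_ThetaDone -- from S48/G1/ThetaDone.lean

/-!
# S48 THETA1: done (helper92 + helper1, with helper15's PORT)

* `thetaStatement_proved : ThetaStatement` (unconditional);
* `intStructStatement_proved : Fermat.Agent.S48.IntStructStatement` (unconditional).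
-/

set_option autoImplicit false

namespace Fermat.Agent.S48G1.ThetaQ

/-- **THETA1**, unconditionally. -/
theorem thetaStatement_proved : Fermat.Agent.S48G1.ThetaStatement :=
  thetaStatement_of (fun N _ _ => hasSumBigTheta N) (fun N _ _ => dkBern N)

/-- the integral structure of `S₁(Γ₁(N))`, unconditionally. -/
theorem intStructStatement_proved : Fermat.Agent.S48.IntStructStatement :=
  Fermat.Agent.S48G1.intStruct_of_theta thetaStatement_proved

end Fermat.Agent.S48G1.ThetaQ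
end MergeWrap_S48_G1_ThetaDone
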